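/-
M59 / box [C] Mazur at `q = 2`, HESSE PORT, cluster D-TORIC (helper29).  Prefix `m59h2_`.

Twin of the tainted declarations of `TW/Easy/Toric/ClassOfFFW.lean`: **FROM THE SWAP IDENTITY
`W (σ g') · g'^Q = c · r^m` IN THE HESSE COVER OVER `L1` (`ζ₃ ∈ L1`) TO THE IDENTITY
`W_q (φ • z) + Q • z = 0` ON CLASSES OF `J₀(M q)`**, `3 ∤ q`.  `ι₃ = ss2_dp_iotaH` (`X ↦ X³`),
`W_E = ssm_fh_W`; the cover-free lemmas `twfc_class_W`, `twfc_bc_WF`, `twfc_rep_*` are main's.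
-/
import Mathlib
import Fermat.Agent.TW.Easy.Toric.ClassOfFFW
import Fermat.Agent.SS2.DescPhi.StepHes
import Fermat.Agent.SS.Model.FactsHesse

set_option autoImplicit false
set_option linter.unusedSectionVars false
set_option linter.unusedVariables false
set_option linter.style.haveILetI false
set_option synthInstance.maxHeartbeats 400000
set_option maxHeartbeats 1000000

noncomputable section

namespace Fermat.Agent.M59

open ModularCurve AlgebraicCurve Module Fermat.Agent.JT3 Fermat.Agent.S24 Fermat.Agent.SS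
  Fermat.Agent.S35 Fermat.Agent.SS2 Fermat.Agent.S44 Fermat.Agent.FF Fermat.Agent.S36
  Fermat.Agent.TW

local notation "GQ" => (AlgebraicClosure ℚ ≃ₐ[ℚ] AlgebraicClosure ℚ)
local notation "Qb" => AlgebraicClosure ℚ

/-! ### the cover step -/

section CoverW

variable (L1 : Type) [Field L1] [Algebra ℚ L1] [CharZero L1] [Algebra L1 Qb]
  [IsScalarTower ℚ L1 Qb] (h3 : (3 : L1) ≠ 0) (M q : ℕ) [NeZero M] [NeZero q]
  [hq : Fact q.Prime] (hq3 : ¬ 3 ∣ q) (hqM : ¬ q ∣ M)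

/-- `W_E` fixes the constants. -/
theorem m59h2_twfc_WE_const (a : L1) :
    ssm_fh_W h3 M q hq3 hqM (algebraMap L1 (hs_E L1 h3 (M * q)) a) =
      algebraMap L1 (hs_E L1 h3 (M * q)) a :=
  (ssm_alh_WE L1 h3 (ssm_fh_hF9 h3) M q hq.out hq3 hqM).commutes a

/-- **the cover step, swap shape**: from the identity for `g'` to the identity for
`G0 = k · R^m · g'`. -/
theorem m59h2_twfc_cover_W (σ : L1 ≃+* L1) {m : ℕ} (Q : ℕ) {k : L1}
    {R g' G0 : hs_E L1 h3 (M * q)}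
    (hG0 : G0 = algebraMap L1 (hs_E L1 h3 (M * q)) k * R ^ m * g')
    {c : L1} {r : hs_E L1 h3 (M * q)}
    (hid : ssm_fh_W h3 M q hq3 hqM (ssm_sgh_aut h3 (M * q) σ g') * g' ^ Q =
      algebraMap L1 (hs_E L1 h3 (M * q)) c * r ^ m) :
    ssm_fh_W h3 M q hq3 hqM (ssm_sgh_aut h3 (M * q) σ G0) * G0 ^ Q =
      algebraMap L1 (hs_E L1 h3 (M * q)) (σ k * k ^ Q * c) *
        (ssm_fh_W h3 M q hq3 hqM (ssm_sgh_aut h3 (M * q) σ R) * R ^ Q * r) ^ m := by
  have e : ssm_fh_W h3 M q hq3 hqM (ssm_sgh_aut h3 (M * q) σ G0) * G0 ^ Q =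
      algebraMap L1 (hs_E L1 h3 (M * q)) (σ k) * algebraMap L1 (hs_E L1 h3 (M * q)) k ^ Q *
        (ssm_fh_W h3 M q hq3 hqM (ssm_sgh_aut h3 (M * q) σ R) * R ^ Q) ^ m *
        (ssm_fh_W h3 M q hq3 hqM (ssm_sgh_aut h3 (M * q) σ g') * g' ^ Q) := by
    rw [hG0]
    simp only [map_mul, map_pow, ssm_sgh_aut_algebraMap, m59h2_twfc_WE_const]
    ring
  rw [e, hid, map_mul, map_mul, map_pow]
  ring

end CoverW

/-! ### back to `Q̄` -/

section BarW

variable (L1 : Type) [Field L1] [Algebra ℚ L1] [CharZero L1] [Algebra L1 Qb]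
  [IsScalarTower ℚ L1 Qb] (h3 : (3 : L1) ≠ 0) (M q : ℕ) [NeZero M] [NeZero q]
  [hq : Fact q.Prime] (hq3 : ¬ 3 ∣ q) (hqM : ¬ q ∣ M)

/-- **the descent step back to `Q̄`, swap shape, Hesse cover** (`ζ₃ ∈ L1`): from the identity for
`ι₃ g1` in the cover over `L1` to the identity for `f = c₀ · r₀^m · bc g1` over `Q̄`. -/
theorem m59h2_twfc_bar_W (φ : GQ) (σ1 : L1 ≃ₐ[ℚ] L1)
    (hσ : ∀ x : L1, algebraMap L1 Qb (σ1 x) = φ (algebraMap L1 Qb x))
    {ζ : L1} (hζ : IsPrimitiveRoot ζ 3)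
    {m : ℕ} (hm : m ≠ 0) (Q : ℕ) {f : modularFunctionFieldBar (M * q)}
    (g1 : laurentBaseChange L1 (modularFunctionFieldFull (M * q))) (hg1 : g1 ≠ 0)
    (hord : ∀ w : Place L1 (laurentBaseChange L1 (modularFunctionFieldFull (M * q))),
      (m : ℤ) ∣ w.ord g1)
    {c₀ : Qb} {r₀ : modularFunctionFieldBar (M * q)} (hc₀ : c₀ ≠ 0) (hr₀ : r₀ ≠ 0)
    (hfeq : f = algebraMap Qb (modularFunctionFieldBar (M * q)) c₀ * r₀ ^ m *
      dsc_bcHom L1 Qb (modularFunctionFieldFull (M * q)) g1)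
    {c : L1} {r : hs_E L1 h3 (M * q)}
    (hid : ssm_fh_W h3 M q hq3 hqM
        (ssm_sgh_aut h3 (M * q) σ1.toRingEquiv (ss2_dp_iotaH L1 h3 (M * q) g1)) *
          ss2_dp_iotaH L1 h3 (M * q) g1 ^ Q =
        algebraMap L1 (hs_E L1 h3 (M * q)) c * r ^ m) :
    ∃ (c' : Qb) (r' : modularFunctionFieldBar (M * q)), r' ≠ 0 ∧
      ssm_al_Wbar M q hq.out hqM (ss_act (M * q) φ f) * f ^ Q =
        algebraMap Qb (modularFunctionFieldBar (M * q)) c' * r' ^ m := by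
  set Φ1 := arithmeticGalois (modularFunctionFieldFull (M * q)) σ1 with hΦ1
  set G := dsc_bcHom L1 Qb (modularFunctionFieldFull (M * q)) g1 with hG
  have hΦg : Φ1 • g1 ≠ 0 := by rwa [Ne, smul_eq_zero_iff_eq]
  have hWΦg : ss2_dp_WF L1 M q hqM (Φ1 • g1) ≠ 0 := by rwa [Ne, map_eq_zero]
  have hG0 : G ≠ 0 := by rwa [hG, Ne, map_eq_zero]
  obtain ⟨h1, hh1⟩ : ∃ h1 : laurentBaseChange L1 (modularFunctionFieldFull (M * q)),
      h1 = ss2_dp_WF L1 M q hqM (Φ1 • g1) * g1 ^ Q := ⟨_, rfl⟩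
  have hh10 : h1 ≠ 0 := by
    rw [hh1]
    exact mul_ne_zero hWΦg (pow_ne_zero _ hg1)
  have hordh : ∀ w : Place L1 (laurentBaseChange L1 (modularFunctionFieldFull (M * q))),
      (m : ℤ) ∣ w.ord h1 := fun w => by
    rw [hh1, w.ord_mul hWΦg (pow_ne_zero _ hg1), ssk_ord_pow]
    refine dvd_add ?_ (Dvd.dvd.mul_left (hord w) _)
    exact lg_dvd_ord_of_embedding (ss2_dp_WF L1 M q hqM).toAlgHom (m : ℤ) (Φ1 • g1)
      (fun v => by rw [ssd_ord_smul]; exact hord _) w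
  -- the image of `h1` in the cover
  have hιh : ss2_dp_iotaH L1 h3 (M * q) h1 = algebraMap L1 (hs_E L1 h3 (M * q)) c * r ^ m := by
    rw [hh1, map_mul, map_pow, ← ss2_dp_WEH_iota L1 h3 M q hq3 hqM, ss2_dp_iotaH_smul]
    exact hid
  -- root descent from the cover
  have hmemE : ∀ x : LaurentSeries L1, x ∈ hs_E L1 h3 (M * q) →
      x ∈ laurentBaseChange L1 (hs_E ℚ ssd_three_ne_zero_rat (M * q)) :=
    fun x hx => by rw [← ssd_hs_E_eq L1 (M * q) h3 ssd_three_ne_zero_rat]; exact hx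
  have heq : qExpand L1 3 (h1 : LaurentSeries L1) =
      algebraMap L1 (LaurentSeries L1) c * (r : LaurentSeries L1) ^ m := by
    have := congrArg (fun z : hs_E L1 h3 (M * q) => (z : LaurentSeries L1)) hιh
    exact this
  obtain ⟨c', g', hcg⟩ := ssd_hes_rootDescent (M * q) L1 hζ hm h1 hordh c (r : LaurentSeries L1)
    (hmemE _ r.2) heq
  have hg'0 : g' ≠ 0 := by
    rintro rfl
    rw [zero_pow hm, mul_zero] at hcg
    exact hh10 hcg
  -- base change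
  have e1 : dsc_bcHom L1 Qb (modularFunctionFieldFull (M * q)) h1 =
      ssm_al_Wbar M q hq.out hqM (ss_act (M * q) φ G) * G ^ Q := by
    rw [hh1, map_mul, map_pow, twfc_bc_WF, ss2_dp_bc_smul L1 (M * q) φ σ1 hσ]
  have e2 : dsc_bcHom L1 Qb (modularFunctionFieldFull (M * q)) h1 =
      algebraMap Qb (modularFunctionFieldBar (M * q)) (algebraMap L1 Qb c') *
        dsc_bcHom L1 Qb (modularFunctionFieldFull (M * q)) g' ^ m := by
    rw [hcg, map_mul, map_pow, dsc_bcHom_algebraMap]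
  have hbg' : dsc_bcHom L1 Qb (modularFunctionFieldFull (M * q)) g' ≠ 0 := by
    rwa [Ne, map_eq_zero]
  have hφr₀ : ss_act (M * q) φ r₀ ≠ 0 := by rwa [Ne, smul_eq_zero_iff_eq]
  have hWφr₀ : ssm_al_Wbar M q hq.out hqM (ss_act (M * q) φ r₀) ≠ 0 := by
    rwa [Ne, map_eq_zero]
  refine ⟨φ c₀ * c₀ ^ Q * algebraMap L1 Qb c',
    ssm_al_Wbar M q hq.out hqM (ss_act (M * q) φ r₀) * r₀ ^ Q *
      dsc_bcHom L1 Qb (modularFunctionFieldFull (M * q)) g',
    mul_ne_zero (mul_ne_zero hWφr₀ (pow_ne_zero _ hr₀)) hbg', ?_⟩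
  have hact : ss_act (M * q) φ f =
      algebraMap Qb (modularFunctionFieldBar (M * q)) (φ c₀) * ss_act (M * q) φ r₀ ^ m *
        ss_act (M * q) φ G := by
    rw [hfeq]
    show arithmeticGalois (modularFunctionFieldFull (M * q)) φ • _ = _
    rw [smul_mul', smul_mul', smul_pow']
    congr 2
    exact ss2_dp_act_const (M * q) φ c₀
  have key : ssm_al_Wbar M q hq.out hqM (ss_act (M * q) φ f) * f ^ Q =
      algebraMap Qb (modularFunctionFieldBar (M * q)) (φ c₀) *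
        algebraMap Qb (modularFunctionFieldBar (M * q)) c₀ ^ Q *
        (ssm_al_Wbar M q hq.out hqM (ss_act (M * q) φ r₀) * r₀ ^ Q) ^ m *
        (ssm_al_Wbar M q hq.out hqM (ss_act (M * q) φ G) * G ^ Q) := by
    rw [hact]
    conv_lhs => rw [hfeq]
    simp only [map_mul, map_pow, AlgHom.commutes]
    ring
  rw [key, ← e1, e2]
  simp only [map_mul, map_pow]
  ring

/-- **[f], swap shape ((Z8)-J), Hesse cover**: the function-field identity
`W_E (σ1 g') · g'^Q = c · r^m` for the normalised `g'` (`ι₃ g1 = k · R^m · g'`) gives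
`W_q (φ • z) + Q • z = 0` for the class `z` represented by `f = c₀ · r₀^m · bc g1`. -/
theorem m59h2_twfc_class_of_ff_W [NeZero (M * q)] (φ : GQ) (σ1 : L1 ≃ₐ[ℚ] L1)
    (hσ : ∀ x : L1, algebraMap L1 Qb (σ1 x) = φ (algebraMap L1 Qb x))
    {ζ : L1} (hζ : IsPrimitiveRoot ζ 3)
    {m : ℕ} (hm : m ≠ 0) (Q : ℕ) {z : JZero (M * q)} {f : modularFunctionFieldBar (M * q)}
    (hrep : s44f_Rep (M * q) m z f)
    (g1 : laurentBaseChange L1 (modularFunctionFieldFull (M * q))) (hg1 : g1 ≠ 0)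
    (hord : ∀ w : Place L1 (laurentBaseChange L1 (modularFunctionFieldFull (M * q))),
      (m : ℤ) ∣ w.ord g1)
    {c₀ : Qb} {r₀ : modularFunctionFieldBar (M * q)} (hc₀ : c₀ ≠ 0) (hr₀ : r₀ ≠ 0)
    (hfeq : f = algebraMap Qb (modularFunctionFieldBar (M * q)) c₀ * r₀ ^ m *
      dsc_bcHom L1 Qb (modularFunctionFieldFull (M * q)) g1)
    {k : L1} {R g' : hs_E L1 h3 (M * q)}
    (hι : ss2_dp_iotaH L1 h3 (M * q) g1 = algebraMap L1 (hs_E L1 h3 (M * q)) k * R ^ m * g')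
    {c : L1} {r : hs_E L1 h3 (M * q)}
    (hid : ssm_fh_W h3 M q hq3 hqM (ssm_sgh_aut h3 (M * q) σ1.toRingEquiv g') * g' ^ Q =
      algebraMap L1 (hs_E L1 h3 (M * q)) c * r ^ m) :
    s44w_WJ M q hq.out hqM (φ • z) + Q • z = 0 := by
  have h1 := m59h2_twfc_cover_W L1 h3 M q hq3 hqM σ1.toRingEquiv Q hι hid
  obtain ⟨c', r', hr', h2⟩ :=
    m59h2_twfc_bar_W L1 h3 M q hq3 hqM φ σ1 hσ hζ hm Q g1 hg1 hord hc₀ hr₀ hfeq h1
  exact twfc_class_W M q hqM φ hm hrep Q hr' h2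

end BarW

end Fermat.Agent.M59

end
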