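/-
M59 / box [C] Mazur at `q = 2`, HESSE PORT, cluster D-TORIC (helper29).  Prefixes `m59h2_`
(twins of `h2plan` rows) and `m59h2t_` (Hesse twins of the S35 helper lemmas used by them, which
are not rows of the plan).

Twins of `TW/Easy/Toric/NodeLeg.lean` (`twft_leg_comp`), `TW/Easy/Toric/CompLift.lean`
(`twft_cl_hcomp`) and of `S35/AbelAsm/{NormaliseLeg, LiftLeg, NormaliseKappa}.lean`
(`s35as_leg_normalise`, `s35as_leg_lift`, `s35as_leg_comp_lift`, `s35as_leg_comp_lift_kappa`) for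
the HESSE tower `hs_E L h3 N' ≤ hs_E L h3 (N' q)`, `3 ∤ q`, `ζ_{3N'} ∈ L`.  All of them are
instances of main's cover-free abstract lemmas (`twft_nf_comp`, `s35as_comp_data`,
`s35as_normalise`, `s35as_lift_of_red`).
-/
import Mathlib
import Fermat.Agent.TW.Easy.Toric.NodeFF
import Fermat.Agent.S35.Toric.SFDInstHes
import Fermat.Agent.S35.FinalHes.Model
import Fermat.Agent.S35.AbelAsm.NormaliseKappa
import Fermat.Agent.S35.AbelAsm.CompData
import Fermat.Agent.S35.SeamsHes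
import Fermat.Agent.S24.Hurwitz.Places

set_option autoImplicit false
set_option linter.unusedSectionVars false
set_option linter.unusedVariables false
set_option linter.style.haveILetI false

noncomputable section

namespace Fermat.Agent.M59

open Fermat.Agent.SS Fermat.Agent.S35 Fermat.Agent.JT3 Fermat.Agent.S24 Fermat.Agent.S28
  Fermat.Agent.TW IntermediateField ModularCurve IsLocalRing AlgebraicCurve Polynomial

/-! ### [COMP] normalisation and [LIFT] on the Hesse tower (S35 helper twins) -/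

section Hesse

variable {L : Type*} [Field L] [CharZero L] [Algebra L (AlgebraicClosure ℚ)] (h3 : (3 : L) ≠ 0)
  (O : ValuationSubring L) [IsDiscreteValuationRing O] (h3O : IsUnit (3 : O)) {π : O}
  (hπ : Irreducible π)
  (N' q : ℕ) [NeZero N'] [NeZero q] [hq : Fact q.Prime] [CharP (ResidueField O) q]
  (hq3 : ¬ 3 ∣ q) (hqN' : ¬ q ∣ N')

include hπ h3O in
set_option maxHeartbeats 1600000 in
set_option synthInstance.maxHeartbeats 200000 in
/-- **[COMP] normalisation, Hesse tower** (twin of `s35as_leg_normalise`). -/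
theorem m59h2t_normalise (m : ℕ) (g : ↥(hs_E L h3 (N' * q))) (n1 n2 t : ℤ)
    (h1 : s35as_IsGU (↥O)
      ((g * s35as_pi (π := π) O (hs_E L h3 (N' * q)) ^ (-n1) : ↥(hs_E L h3 (N' * q))) :
        LaurentSeries L))
    (h2 : s35as_IsGU (↥O)
      ((ssm_fh_W h3 N' q hq3 hqN' g * s35as_pi (π := π) O (hs_E L h3 (N' * q)) ^ (-n2) :
        ↥(hs_E L h3 (N' * q))) : LaurentSeries L))
    (ht : n2 - n1 = (m : ℤ) * t) :
    ∃ (R G : ↥(hs_E L h3 (N' * q))), R ≠ 0 ∧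
      g = s35as_pi (π := π) O (hs_E L h3 (N' * q)) ^ n1 * R ^ m * G ∧
      s35as_IsGU (↥O) (G : LaurentSeries L) ∧
      s35as_IsGU (↥O) ((ssm_fh_W h3 N' q hq3 hqN' G : ↥(hs_E L h3 (N' * q))) : LaurentSeries L) ∧
      s35as_red (↥O) (G : LaurentSeries L) =
        s35as_red (↥O)
          ((g * s35as_pi (π := π) O (hs_E L h3 (N' * q)) ^ (-n1) : ↥(hs_E L h3 (N' * q))) :
            LaurentSeries L) ∧
      s35as_red (↥O) ((ssm_fh_W h3 N' q hq3 hqN' G : ↥(hs_E L h3 (N' * q))) : LaurentSeries L) =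
        s35as_red (↥O)
          ((ssm_fh_W h3 N' q hq3 hqN' g * s35as_pi (π := π) O (hs_E L h3 (N' * q)) ^ (-n2) :
            ↥(hs_E L h3 (N' * q))) : LaurentSeries L) :=
  s35as_normalise O hπ q (hs_E L h3 N') (hs_E L h3 (N' * q))
    (ssm_alh_E_le L h3 (ssm_fh_hF9 h3) N' q) (hsa_E_le_quotField h3 O (N' * q) h3O)
    (ssm_fh_W h3 N' q hq3 hqN')
    (fun z => ssm_alh_coe_WE_of_mem L h3 (ssm_fh_hF9 h3) N' q hq.out hq3 hqN' z.2 _)
    (ssm_fh_data h3 O h3O hπ N' q hq3 hqN') m g n1 n2 t h1 h2 ht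

set_option maxHeartbeats 1600000 in
set_option synthInstance.maxHeartbeats 200000 in
/-- **[LIFT], Hesse tower** (twin of `s35as_leg_lift`). -/
theorem m59h2t_lift (m E0 : ℕ) (hm : m ≠ 0) (G : ↥(hs_E L h3 (N' * q)))
    (h1 : s35as_IsGU (↥O) (G : LaurentSeries L))
    (h2 : s35as_IsGU (↥O)
      ((ssm_fh_W h3 N' q hq3 hqN' G : ↥(hs_E L h3 (N' * q))) : LaurentSeries L))
    (hred : ∃ (k1 k2 : ResidueField O) (ρ1 ρ2 : LaurentSeries (ResidueField O)),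
        ρ1 ∈ s35as_range O (hs_E L h3 N') ∧ ρ2 ∈ s35as_range O (hs_E L h3 N') ∧
        k1 ≠ 0 ∧ k2 ≠ 0 ∧
        s35as_red (↥O) (G : LaurentSeries L) ^ E0 =
          algebraMap (ResidueField O) (LaurentSeries (ResidueField O)) k1 * ρ1 ^ m ∧
        s35as_red (↥O)
          ((ssm_fh_W h3 N' q hq3 hqN' G : ↥(hs_E L h3 (N' * q))) : LaurentSeries L) ^ E0 =
          algebraMap (ResidueField O) (LaurentSeries (ResidueField O)) k2 * ρ2 ^ m) :
    ∃ (R g' : ↥(hs_E L h3 (N' * q))), R ≠ 0 ∧ g' ≠ 0 ∧ G ^ E0 = R ^ m * g' ∧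
      s35h_ConstRed h3 O h3O hπ N' q hq3 hqN' g' := by
  obtain ⟨R, g', hR, hg', hRg, K1, K2, hK1, hK2, hc1, hc2⟩ :=
    s35as_lift_of_red O hπ q (hs_E L h3 N') (hs_E L h3 (N' * q))
      (ssm_alh_E_le L h3 (ssm_fh_hF9 h3) N' q) (hsa_E_le_quotField h3 O (N' * q) h3O)
      (ssm_fh_W h3 N' q hq3 hqN')
      (fun z => ssm_alh_coe_WE_of_mem L h3 (ssm_fh_hF9 h3) N' q hq.out hq3 hqN' z.2 _)
      (ssm_fh_data h3 O h3O hπ N' q hq3 hqN') m E0 hm G h1 h2 hred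
  exact ⟨R, g', hR, hg', hRg, K1, K2, hK1, hK2, hc1, hc2⟩

set_option maxHeartbeats 1600000 in
set_option synthInstance.maxHeartbeats 200000 in
/-- **[COMP] + [LIFT], Hesse tower** (twin of `s35as_leg_comp_lift`). -/
theorem m59h2t_comp_lift (m : ℕ) (hm : m ≠ 0) (g : ↥(hs_E L h3 (N' * q))) (n1 n2 t : ℤ)
    (h1 : s35as_IsGU (↥O)
      ((g * s35as_pi (π := π) O (hs_E L h3 (N' * q)) ^ (-n1) : ↥(hs_E L h3 (N' * q))) :
        LaurentSeries L))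
    (h2 : s35as_IsGU (↥O)
      ((ssm_fh_W h3 N' q hq3 hqN' g * s35as_pi (π := π) O (hs_E L h3 (N' * q)) ^ (-n2) :
        ↥(hs_E L h3 (N' * q))) : LaurentSeries L))
    (ht : n2 - n1 = (m : ℤ) * t)
    (hred : ∃ (k1 k2 : ResidueField O) (ρ1 ρ2 : LaurentSeries (ResidueField O)),
        ρ1 ∈ s35as_range O (hs_E L h3 N') ∧ ρ2 ∈ s35as_range O (hs_E L h3 N') ∧
        k1 ≠ 0 ∧ k2 ≠ 0 ∧
        s35as_red (↥O)
          ((g * s35as_pi (π := π) O (hs_E L h3 (N' * q)) ^ (-n1) : ↥(hs_E L h3 (N' * q))) :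
            LaurentSeries L) =
          algebraMap (ResidueField O) (LaurentSeries (ResidueField O)) k1 * ρ1 ^ m ∧
        s35as_red (↥O)
          ((ssm_fh_W h3 N' q hq3 hqN' g * s35as_pi (π := π) O (hs_E L h3 (N' * q)) ^ (-n2) :
            ↥(hs_E L h3 (N' * q))) : LaurentSeries L) =
          algebraMap (ResidueField O) (LaurentSeries (ResidueField O)) k2 * ρ2 ^ m) :
    ∃ (c : L) (R g' : ↥(hs_E L h3 (N' * q))), c ≠ 0 ∧ R ≠ 0 ∧ g' ≠ 0 ∧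
      g = algebraMap L ↥(hs_E L h3 (N' * q)) c * R ^ m * g' ∧
      s35h_ConstRed h3 O h3O hπ N' q hq3 hqN' g' := by
  obtain ⟨R1, G, hR1, hg, hG1, hG2, hr1, hr2⟩ :=
    m59h2t_normalise h3 O h3O hπ N' q hq3 hqN' m g n1 n2 t h1 h2 ht
  obtain ⟨k1, k2, ρ1, ρ2, hρ1, hρ2, hk1, hk2, hu1, hu2⟩ := hred
  obtain ⟨R2, g', hR2, hg', hGg, hconst⟩ :=
    m59h2t_lift h3 O h3O hπ N' q hq3 hqN' m 1 hm G hG1 hG2
      ⟨k1, k2, ρ1, ρ2, hρ1, hρ2, hk1, hk2, by rw [pow_one, hr1, hu1], by rw [pow_one, hr2, hu2]⟩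
  rw [pow_one] at hGg
  have hπ0 : ((π : ↥O) : L) ≠ 0 := fun h => hπ.ne_zero (Subtype.ext h)
  refine ⟨((π : ↥O) : L) ^ n1, R1 * R2, g', zpow_ne_zero n1 hπ0, mul_ne_zero hR1 hR2, hg', ?_,
    hconst⟩
  rw [hg, hGg, map_zpow₀, mul_pow]
  ring

set_option maxHeartbeats 1600000 in
set_option synthInstance.maxHeartbeats 200000 in
/-- **[COMP] + [LIFT], Hesse tower, `κ'`-form with the valuations quantified away** (twin of
`s35as_leg_comp_lift_kappa`). -/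
theorem m59h2t_comp_lift_kappa (m : ℕ) (hm : m ≠ 0) (g : ↥(hs_E L h3 (N' * q))) (hg : g ≠ 0)
    (hcomp : ∀ n1 n2 : ℤ,
      s35as_IsGU (↥O)
        ((g * s35as_pi (π := π) O (hs_E L h3 (N' * q)) ^ (-n1) : ↥(hs_E L h3 (N' * q))) :
          LaurentSeries L) →
      s35as_IsGU (↥O)
        ((ssm_fh_W h3 N' q hq3 hqN' g * s35as_pi (π := π) O (hs_E L h3 (N' * q)) ^ (-n2) :
          ↥(hs_E L h3 (N' * q))) : LaurentSeries L) →
      (m : ℤ) ∣ n2 - n1)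
    (hred1 : ∀ n1 : ℤ,
      s35as_IsGU (↥O)
        ((g * s35as_pi (π := π) O (hs_E L h3 (N' * q)) ^ (-n1) : ↥(hs_E L h3 (N' * q))) :
          LaurentSeries L) →
      ∃ (k1 : ResidueField O) (ρ1 : LaurentSeries (ResidueField O)), k1 ≠ 0 ∧
        ρ1 ∈ s35kp_kappa O hπ (hs_E L h3 N') (hsa_E_le_quotField h3 O N' h3O) ∧
        s35as_red (↥O)
          ((g * s35as_pi (π := π) O (hs_E L h3 (N' * q)) ^ (-n1) : ↥(hs_E L h3 (N' * q))) :
            LaurentSeries L) =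
          algebraMap (ResidueField O) (LaurentSeries (ResidueField O)) k1 * ρ1 ^ m)
    (hred2 : ∀ n2 : ℤ,
      s35as_IsGU (↥O)
        ((ssm_fh_W h3 N' q hq3 hqN' g * s35as_pi (π := π) O (hs_E L h3 (N' * q)) ^ (-n2) :
          ↥(hs_E L h3 (N' * q))) : LaurentSeries L) →
      ∃ (k2 : ResidueField O) (ρ2 : LaurentSeries (ResidueField O)), k2 ≠ 0 ∧
        ρ2 ∈ s35kp_kappa O hπ (hs_E L h3 N') (hsa_E_le_quotField h3 O N' h3O) ∧
        s35as_red (↥O)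
          ((ssm_fh_W h3 N' q hq3 hqN' g * s35as_pi (π := π) O (hs_E L h3 (N' * q)) ^ (-n2) :
            ↥(hs_E L h3 (N' * q))) : LaurentSeries L) =
          algebraMap (ResidueField O) (LaurentSeries (ResidueField O)) k2 * ρ2 ^ m) :
    ∃ (c : L) (R g' : ↥(hs_E L h3 (N' * q))), c ≠ 0 ∧ R ≠ 0 ∧ g' ≠ 0 ∧
      g = algebraMap L ↥(hs_E L h3 (N' * q)) c * R ^ m * g' ∧
      s35h_ConstRed h3 O h3O hπ N' q hq3 hqN' g' := by
  have hWg : ssm_fh_W h3 N' q hq3 hqN' g ≠ 0 := by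
    intro h
    exact hg ((map_eq_zero_iff _ (ssm_fh_W h3 N' q hq3 hqN').injective).1 h)
  obtain ⟨n1, h1⟩ := s35as_exists_isGU_neg O hπ (hs_E L h3 (N' * q))
    (hsa_E_le_quotField h3 O (N' * q) h3O) g hg
  obtain ⟨n2, h2⟩ := s35as_exists_isGU_neg O hπ (hs_E L h3 (N' * q))
    (hsa_E_le_quotField h3 O (N' * q) h3O) (ssm_fh_W h3 N' q hq3 hqN' g) hWg
  obtain ⟨t, ht⟩ := hcomp n1 n2 h1 h2
  obtain ⟨k1, ρ1, hk1, hρ1, hu1⟩ := hred1 n1 h1
  obtain ⟨k2, ρ2, hk2, hρ2, hu2⟩ := hred2 n2 h2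
  exact m59h2t_comp_lift h3 O h3O hπ N' q hq3 hqN' m hm g n1 n2 t h1 h2 ht
    ⟨k1, k2, ρ1, ρ2,
      s35as_mem_range_of_mem_kappa O hπ (hs_E L h3 N') (hsa_E_le_quotField h3 O N' h3O) hρ1,
      s35as_mem_range_of_mem_kappa O hπ (hs_E L h3 N') (hsa_E_le_quotField h3 O N' h3O) hρ2,
      hk1, hk2, hu1, hu2⟩

end Hesse

/-! ### the component-group statement -/

section NF

variable (L : Type) [Field L] [NumberField L] [Algebra L (AlgebraicClosure ℚ)]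
  (h3 : (3 : L) ≠ 0) (O : ValuationSubring L) [IsDiscreteValuationRing O]
  (h3O : IsUnit (3 : O))
variable (N' q : ℕ) [NeZero N'] [NeZero q] [hq : Fact q.Prime] [CharP (ResidueField O) q]
  (hq3 : ¬ 3 ∣ q) (hqN' : ¬ q ∣ N') (hπ : Irreducible ((q : ℕ) : ↥O))
  (ζ : L) (hζ : IsPrimitiveRoot ζ (3 * N'))

include hζ in
set_option synthInstance.maxHeartbeats 400000 in
set_option maxHeartbeats 3200000 in
/-- **the component-group statement for the Hesse tower over a number-field level** (twin of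
`twft_leg_comp`). -/
theorem m59h2_twft_leg_comp (m : ℕ) {G : ↥(hs_E L h3 (N' * q))} (hG : G ≠ 0)
    (hord : ∀ P : Place L ↥(hs_E L h3 (N' * q)), (m : ℤ) ∣ P.ord G)
    (hG1 : G ∈ ssm_fh_V1 h3 O h3O hπ N' q ∧ G ∉ (ssm_fh_V1 h3 O h3O hπ N' q).nonunits) (n : ℤ)
    (hG2 : G / algebraMap ↥O ↥(hs_E L h3 (N' * q)) ((q : ℕ) : ↥O) ^ n ∈
        ssm_fh_V2 h3 O h3O hπ N' q hq3 hqN' ∧
      G / algebraMap ↥O ↥(hs_E L h3 (N' * q)) ((q : ℕ) : ↥O) ^ n ∉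
        (ssm_fh_V2 h3 O h3O hπ N' q hq3 hqN').nonunits)
    {k : ↥O} (hk : IsUnit k) {S : ↥(hs_E L h3 (N' * q))}
    (hS : S ∈ ssm_fh_V1 h3 O h3O hπ N' q ∧ S ∉ (ssm_fh_V1 h3 O h3O hπ N' q).nonunits)
    (hcong : G - algebraMap ↥O ↥(hs_E L h3 (N' * q)) k * S ^ m ∈
      (ssm_fh_V1 h3 O h3O hπ N' q).nonunits) : (m : ℤ) ∣ n := by
  have hqO : ((q : ℕ) : O) ∈ maximalIdeal O := by
    rw [← residue_eq_zero_iff, map_natCast]
    exact CharP.cast_eq_zero _ q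
  have hq3' : q ≠ 3 := by
    rintro rfl
    exact hq3 dvd_rfl
  obtain ⟨-, -, hprime1, -, -, -, -⟩ := ssm_hlr_main h3 O N' hπ q hqO hq3' hqN' ζ hζ
  haveI := ssm_go_isScalarTower O (hs_E L h3 (N' * q))
  haveI := ssm_glh_finite h3 (N' * q)
  have hx := ssm_sgm_transcendental h3 (N' * q)
  have H := ssm_fh_hyp h3 O h3O hπ N' q hq3 hqN' hprime1
  have M := s35fh_model L h3 O h3O hπ N' q hq3 hqN' ζ hζ
  exact twft_nf_comp (L := L) hπ hx H M (tori_sfdi_hes_pts1 L h3 O h3O N' q hq3 hqN' hπ ζ hζ)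
    (tori_sfdi_hes_pts2 L h3 O h3O N' q hq3 hqN' hπ ζ hζ) m hG hord hG1 n hG2 hk hS hcong

include hζ in
set_option synthInstance.maxHeartbeats 400000 in
set_option maxHeartbeats 3200000 in
/-- **[d] COMP**: the component-group congruence in the vocabulary of `S35/AbelAsm` (twin of
`twft_cl_hcomp`). -/
theorem m59h2_twft_cl_hcomp (m : ℕ) (hm : m ≠ 0) (g : ↥(hs_E L h3 (N' * q))) (hg : g ≠ 0)
    (hord : ∀ P : Place L ↥(hs_E L h3 (N' * q)), (m : ℤ) ∣ P.ord g) (n1 n2 : ℤ)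
    (h1 : s35as_IsGU (↥O)
      ((g * s35as_pi (π := ((q : ℕ) : ↥O)) O (hs_E L h3 (N' * q)) ^ (-n1) :
        ↥(hs_E L h3 (N' * q))) : LaurentSeries L))
    (h2 : s35as_IsGU (↥O)
      ((ssm_fh_W h3 N' q hq3 hqN' g *
          s35as_pi (π := ((q : ℕ) : ↥O)) O (hs_E L h3 (N' * q)) ^ (-n2) :
        ↥(hs_E L h3 (N' * q))) : LaurentSeries L))
    (hred : ∃ (k1 : ResidueField O) (ρ1 : LaurentSeries (ResidueField O)), k1 ≠ 0 ∧
        ρ1 ∈ s35kp_kappa O hπ (hs_E L h3 N') (hsa_E_le_quotField h3 O N' h3O) ∧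
        s35as_red (↥O)
          ((g * s35as_pi (π := ((q : ℕ) : ↥O)) O (hs_E L h3 (N' * q)) ^ (-n1) :
            ↥(hs_E L h3 (N' * q))) : LaurentSeries L) =
          algebraMap (ResidueField O) (LaurentSeries (ResidueField O)) k1 * ρ1 ^ m) :
    (m : ℤ) ∣ n2 - n1 := by
  have hpi0 : s35as_pi (π := ((q : ℕ) : ↥O)) O (hs_E L h3 (N' * q)) ≠ 0 :=
    s35as_pi_ne_zero O hπ (hs_E L h3 (N' * q))
  have hG0 : g * s35as_pi (π := ((q : ℕ) : ↥O)) O (hs_E L h3 (N' * q)) ^ (-n1) ≠ 0 :=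
    mul_ne_zero hg (zpow_ne_zero _ hpi0)
  -- orders
  have hordG : ∀ P : Place L ↥(hs_E L h3 (N' * q)),
      (m : ℤ) ∣ P.ord (g * s35as_pi (π := ((q : ℕ) : ↥O)) O (hs_E L h3 (N' * q)) ^ (-n1)) := by
    intro P
    rw [P.ord_mul hg (zpow_ne_zero _ hpi0), P.ord_zpow]
    have h0 : P.ord (s35as_pi (π := ((q : ℕ) : ↥O)) O (hs_E L h3 (N' * q))) = 0 :=
      hw_ord_algebraMap P _
    rw [h0, mul_zero, add_zero]
    exact hord P
  obtain ⟨k1, ρ1, hk1, hρ1, hu1⟩ := hred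
  obtain ⟨hG1, hG2, k, S, hk, hS1, hcong⟩ :=
    s35as_comp_data O hπ q (hs_E L h3 N') (hs_E L h3 (N' * q))
      (ssm_alh_E_le L h3 (ssm_fh_hF9 h3) N' q) (hsa_E_le_quotField h3 O (N' * q) h3O)
      (ssm_fh_W h3 N' q hq3 hqN')
      (fun z => ssm_alh_coe_WE_of_mem L h3 (ssm_fh_hF9 h3) N' q hq.out hq3 hqN' z.2 _) m hm g
      n1 n2 h1 h2
      ⟨k1, ρ1, hk1,
        s35as_mem_range_of_mem_kappa O hπ (hs_E L h3 N') (hsa_E_le_quotField h3 O N' h3O) hρ1,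
        hu1⟩
  exact m59h2_twft_leg_comp L h3 O h3O N' q hq3 hqN' hπ ζ hζ m hG0 hordG hG1 (n2 - n1) hG2 hk hS1
    hcong

end NF

end Fermat.Agent.M59

end
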