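/-
M59 / box [C] Mazur at `q = 2`, HESSE PORT, cluster D-TORIC (helper29).  Prefixes `m59h2_`
(twins of `h2plan` rows) and `m59h2t_` (private Hesse twins of helper lemmas outside my rows).

Twin of `TW/Easy/Toric/NormalForm.lean`: **THE NORMAL FORM OF AN `I_A`-FIXED TORSION CLASS WITH
`ν = 0 = δ` AT `z` AND AT `W_q z`, ON THE HESSE COVER** (`3 ∤ q`, `ι₃ = (X ↦ X³)`, `ζ_{3M} ∈ L1`).

* `m59h2t_qExpand_three_mem_kappa`, `m59h2t_root_desc_F` : twins of `s35as_qExpand_two_mem_kappa`,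
  `s35as_root_desc_F` (`S35/AbelAsm/RootDescF.lean`);
* `m59h2t_phi_mem_iff` : private twin of `s44nlr_phi_mem_iff`; `m59h2t_ord_rep` : private twin of
  `s44mci_ord_rep` (these two are rows of the clusters B-UDIV / C-MONO; the private copies carry a
  different name on purpose, so that no two files of the port declare the same constant);
* `m59h2_twft_br_pow`, `m59h2_twft_br_hred`, `m59h2_twft_br_W`, `m59h2_twft_nf_at`,
  **`m59h2_twft_normal_form`**.
-/
import Mathlib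
import Fermat.Agent.TW.Easy.Toric.NormalForm
import Fermat.Agent.M59.Hesse2.Res.HesMain
import Fermat.Agent.M59.Hesse2.Toric.HesCompLift
import Fermat.Agent.SS2.DescPhi.StepHes

set_option autoImplicit false
set_option linter.unusedSectionVars false
set_option linter.unusedVariables false
set_option linter.style.haveILetI false
set_option synthInstance.maxHeartbeats 400000
set_option maxHeartbeats 1000000

noncomputable section

namespace Fermat.Agent.M59

open Polynomial ModularCurve AlgebraicCurve IntermediateField IsLocalRing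
open Fermat.Agent.JT3 Fermat.Agent.SS Fermat.Agent.S35 Fermat.Agent.S24 Fermat.Agent.S44
  Fermat.Agent.SS2 Fermat.Agent.S28 Fermat.Agent.TW

local notation "Qb" => AlgebraicClosure ℚ

/-! ### [c] root descent at the F-level, Hesse cover -/

section Kappa

variable {L : Type*} [Field L] [CharZero L] (h3 : (3 : L) ≠ 0) (O : ValuationSubring L)
  [IsDiscreteValuationRing O] (h3O : IsUnit (3 : O)) {π : O} (hπ : Irreducible π)
  (N' : ℕ) [NeZero N']

/-- `w ↦ w(X³)` maps `lg_F k₁ N'` into the residue function field `κ'` of `hs_E L h3 N'`. -/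
theorem m59h2t_qExpand_three_mem_kappa {w : LaurentSeries (ResidueField O)}
    (hw : w ∈ lg_F (ResidueField O) N') :
    qExpand (ResidueField O) 3 w ∈
      s35kp_kappa O hπ (hs_E L h3 N') (hsa_E_le_quotField h3 O N' h3O) := by
  have hle : lg_F (ResidueField O) N' ≤
      (s35kp_kappa O hπ (hs_E L h3 N') (hsa_E_le_quotField h3 O N' h3O)).comap
        (qExpandAlgHomC (ResidueField O) 3) := by
    show IntermediateField.adjoin (ResidueField O) (divisorExpansionsC (ResidueField O) N') ≤ _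
    rw [IntermediateField.adjoin_le_iff]
    rintro _ ⟨d, hd0, hd, rfl⟩
    haveI := hd0
    show qExpand (ResidueField O) 3 (qExpand (ResidueField O) d (jqModC (ResidueField O))) ∈
      s35kp_kappa O hπ (hs_E L h3 N') (hsa_E_le_quotField h3 O N' h3O)
    -- the lift
    have hmem : hs_phi L (qExpand L d (jqModC L)) ∈ hs_E L h3 N' :=
      hs_phi_mem_E L h3 N' (jqModCd_mem_full L N' hd)
    have hz : hs_phi L (qExpand L d (jqModC L)) =
        coeffMap (algebraMap ↥O L) (qExpand ↥O 3 (qExpand ↥O d (jqModC ↥O))) := by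
      rw [hs_phi_apply, coeffMap_qExpand, coeffMap_qExpand, coeffMap_jqModC]
    have hb : gq_IsBdd ↥O L (hs_phi L (qExpand L d (jqModC L))) := by
      rw [hz]; exact gq_isBdd_iota _
    have h1 := s35kp_mem_kappa_of_bdd O hπ (hs_E L h3 N') (hsa_E_le_quotField h3 O N' h3O) hmem hb
    have h2 : gq_res ↥O L ⟨hs_phi L (qExpand L d (jqModC L)), hb⟩ =
        qExpand (ResidueField O) 3 (qExpand (ResidueField O) d (jqModC (ResidueField O))) := by
      have e : (⟨hs_phi L (qExpand L d (jqModC L)), hb⟩ : ↥(gq_bddSubring ↥O L)) =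
          ⟨coeffMap (algebraMap ↥O L) (qExpand ↥O 3 (qExpand ↥O d (jqModC ↥O))),
            gq_isBdd_iota _⟩ := Subtype.ext hz
      rw [e, gq_res_iota, coeffMap_qExpand, coeffMap_qExpand, coeffMap_jqModC]
    rw [← h2]
    exact h1
  exact hle hw

end Kappa

section RootDesc

set_option synthInstance.maxHeartbeats 200000 in
set_option maxHeartbeats 1600000 in
/-- **[c] ROOT DESCENT at the F-level, Hesse cover** (twin of `s35as_root_desc_F`). -/
theorem m59h2t_root_desc_F {L : Type*} [Field L] [CharZero L] [Algebra L Qb] (h3 : (3 : L) ≠ 0)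
    (O : ValuationSubring L) [IsDiscreteValuationRing O] (h3O : IsUnit (3 : O)) {π : O}
    (hπ : Irreducible π)
    (N' q : ℕ) [NeZero N'] [NeZero q] [Fact q.Prime] [CharP (ResidueField O) q]
    (hqN' : ¬ q ∣ N') {kb : Type*} [Field kb] (j : ResidueField O →+* kb) {m : ℕ}
    (hm : (m : kb) ≠ 0) (x : ↥(s44mz_VF O hπ N' q)) (hx : IsUnit x)
    {h : LaurentSeries kb} (hh : h ∈ lg_F kb N')
    (hpow : coeffMap j
        (gq_res ↥O L ⟨((x : ↥(lg_F L (N' * q))) : LaurentSeries L), x.2⟩) = h ^ m) :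
    ∃ (k1 : ResidueField O) (ρ1 : LaurentSeries (ResidueField O)), k1 ≠ 0 ∧
      ρ1 ∈ s35kp_kappa O hπ (hs_E L h3 N') (hsa_E_le_quotField h3 O N' h3O) ∧
      s35as_red ↥O
        ((hs_phiE h3 (N := N' * q) (x : ↥(lg_F L (N' * q))) : ↥(hs_E L h3 (N' * q))) :
          LaurentSeries L) =
        algebraMap (ResidueField O) (LaurentSeries (ResidueField O)) k1 * ρ1 ^ m := by
  have hm0 : m ≠ 0 := by
    rintro rfl
    exact hm Nat.cast_zero
  -- the reduction `u` of `x`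
  set u : LaurentSeries (ResidueField O) :=
    gq_res ↥O L ⟨((x : ↥(lg_F L (N' * q))) : LaurentSeries L), x.2⟩ with hu
  have huF : u ∈ lg_F (ResidueField O) N' := (s44nlr_resF O hπ N' q hqN' x).2
  have hu0 : u ≠ 0 := by
    have h1 : IsUnit (s44nlr_resF O hπ N' q hqN' x) := hx.map _
    intro h0
    apply h1.ne_zero
    apply Subtype.ext
    rw [s44nlr_resF_coe]
    exact h0
  have hh0 : h ≠ 0 := by
    rintro rfl
    rw [zero_pow hm0] at hpow
    exact hu0 ((map_eq_zero_iff _ (coeffMap j).injective).1 hpow)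
  -- root descent
  obtain ⟨a1, w1, ha1, hw1, hw10, huw⟩ :=
    s35bs_descend_one j (lg_F (ResidueField O) N') (lg_F kb N')
      (s35as_lgF_le_adjoin_map j N') hm hu0 (E := 1) (a := 1) hh one_ne_zero hh0
      (by rw [pow_one, map_one, one_mul]; exact hpow)
  rw [pow_one] at huw
  -- the reduction of `φ x`
  have hbx : gq_IsBdd ↥O L ((x : ↥(lg_F L (N' * q))) : LaurentSeries L) := x.2
  have hcoe : ((hs_phiE h3 (N := N' * q) (x : ↥(lg_F L (N' * q))) : ↥(hs_E L h3 (N' * q))) :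
      LaurentSeries L) = qExpand L 3 ((x : ↥(lg_F L (N' * q))) : LaurentSeries L) := rfl
  have hb2 : gq_IsBdd ↥O L (qExpand L 3 ((x : ↥(lg_F L (N' * q))) : LaurentSeries L)) :=
    ssm_ga_beta_isBdd 3 hbx
  refine ⟨a1, qExpand (ResidueField O) 3 w1, ha1,
    m59h2t_qExpand_three_mem_kappa h3 O h3O hπ N' hw1, ?_⟩
  rw [hcoe, s35as_red_eq hb2]
  have h3' := ssm_ga_res_beta (O := ↥O) (K := L) 3
    ⟨((x : ↥(lg_F L (N' * q))) : LaurentSeries L), hbx⟩
  rw [h3', ← hu, huw]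
  have e1 : qExpand (ResidueField O) 3
      (algebraMap (ResidueField O) (LaurentSeries (ResidueField O)) a1 * w1 ^ m) =
      qExpandAlgHomC (ResidueField O) 3
        (algebraMap (ResidueField O) (LaurentSeries (ResidueField O)) a1 * w1 ^ m) := rfl
  rw [e1, map_mul, map_pow, AlgHom.commutes]
  rfl

end RootDesc

/-! ### the Gauss valuation along `ι₃`, and the orders on the cover -/

section Generic

variable {L : Type*} [Field L] [CharZero L] [Algebra L (AlgebraicClosure ℚ)] (h3 : (3 : L) ≠ 0)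
  (O : ValuationSubring L) [IsDiscreteValuationRing O] (h3O : IsUnit (3 : O)) {π : O}
  (hπ : Irreducible π)
variable (N' q : ℕ) [NeZero N'] [NeZero q] [hq : Fact q.Prime] [CharP (ResidueField O) q]
  (hq3 : ¬ 3 ∣ q) (hqN' : ¬ q ∣ N')

/-- `φ x ∈ V₁ ↔ x ∈ V_F` along `φ = hs_phiE` (`X ↦ X³`): private twin of `s44nlr_phi_mem_iff`. -/
theorem m59h2t_phi_mem_iff (x : ↥(lg_F L (N' * q))) :
    hs_phiE h3 (N := N' * q) x ∈ ssm_fh_V1 h3 O h3O hπ N' q ↔ x ∈ s44mz_VF O hπ N' q := by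
  have hquot : gq_IsQuot ↥O L (x : LaurentSeries L) := rdn_gf_le_quotField O (N' * q) x.2
  have hcoe : ((hs_phiE h3 (N := N' * q) x : ↥(hs_E L h3 (N' * q))) : LaurentSeries L) =
      qExpand L 3 (x : LaurentSeries L) := rfl
  constructor
  · intro hy
    have hyb : gq_IsBdd ↥O L
        ((hs_phiE h3 (N := N' * q) x : ↥(hs_E L h3 (N' * q))) : LaurentSeries L) := hy
    exact (ssm_ga_beta_isBdd_iff 3 π hπ.ne_zero hπ.maximalIdeal_eq hquot).1 (hcoe ▸ hyb)
  · intro hx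
    have hb : gq_IsBdd ↥O L (x : LaurentSeries L) := hx
    have : gq_IsBdd ↥O L
        ((hs_phiE h3 (N := N' * q) x : ↥(hs_E L h3 (N' * q))) : LaurentSeries L) :=
      ssm_ga_beta_isBdd 3 hb
    exact this

end Generic

section Ord

variable (L1 : Type) [Field L1] [Algebra ℚ L1] [CharZero L1] [Algebra L1 Qb]
  [IsScalarTower ℚ L1 Qb] (h3 : (3 : L1) ≠ 0) (N : ℕ) [NeZero N]

/-- **the orders of `ι₃ fv1` are divisible by `p`** for every model `fv1` of a representing function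
of a `p`-torsion class (private twin of `s44mci_ord_cover` + `s44mci_ord_rep`). -/
theorem m59h2t_ord_rep {p : ℕ} {V : JZero N} {fV : modularFunctionFieldBar N}
    (hfV : s44f_Rep N p V fV) (fv1 : lg_F L1 N) (hfv1 : ssm_al_iotaF L1 N fv1 = fV) :
    hs_phiE h3 (N := N) fv1 ≠ 0 ∧
    ∀ v : Place L1 (hs_E L1 h3 N), (p : ℤ) ∣ v.ord (hs_phiE h3 (N := N) fv1) := by
  have hord : ∀ v : Place Qb (modularFunctionFieldBar N), (p : ℤ) ∣ v.ord fV := by
    obtain ⟨-, D, -, hD⟩ := hfV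
    exact fun v => ⟨_, (hD v).symm⟩
  refine ⟨?_, ?_⟩
  · rw [Ne, map_eq_zero]
    rintro rfl
    rw [map_zero] at hfv1
    exact hfV.1 hfv1.symm
  · have _ : Algebra.IsAlgebraic ℚ Qb := AlgebraicClosure.isAlgebraic ℚ
    have _ : Algebra.IsAlgebraic L1 Qb := Algebra.IsAlgebraic.tower_top (K := ℚ) L1
    obtain ⟨f1', hf1'⟩ : ∃ f1' : laurentBaseChange L1 (modularFunctionFieldFull N),
        f1' = s44td_toBC L1 N fv1 := ⟨_, rfl⟩
    have hf1'coe : (f1' : LaurentSeries L1) = (fv1 : LaurentSeries L1) := by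
      rw [hf1', s44td_toBC_coe]
    have hιcoe : ((ssm_al_iotaF L1 N fv1 : modularFunctionFieldBar N) :
        LaurentSeries Qb) = dsc_cm L1 Qb (fv1 : LaurentSeries L1) := by
      rw [ssm_al_coe_iotaF, dsc_cm]
    have hbc : dsc_bcHom L1 Qb (modularFunctionFieldFull N) f1' = fV := by
      apply Subtype.ext
      rw [dsc_bcHom_coe, hf1'coe, ← hfv1, hιcoe]
    have hord1 : ∀ Q : Place L1 (laurentBaseChange L1 (modularFunctionFieldFull N)),
        (p : ℤ) ∣ Q.ord f1' := fun Q =>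
      dsc_bc_dvd_ord L1 Qb (modularFunctionFieldFull N) (p : ℤ) f1'
        (fun P => by rw [hbc]; exact hord P) Q
    intro v
    have := lg_dvd_ord_of_embedding (ss2_dp_iotaH L1 h3 N) (p : ℤ) f1' hord1 v
    have e : ss2_dp_iotaH L1 h3 N f1' = hs_phiE h3 (N := N) fv1 := by
      apply Subtype.ext
      rw [ss2_dp_iotaH_coe, hf1'coe]
      rfl
    rwa [e] at this

end Ord

/-! ### the bridge -/

section Bridge

variable (A : ValuationSubring Qb) {q : ℕ} [hq : Fact q.Prime] (hA : A.LiesOverPrime q)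
  (M : ℕ) [NeZero M] [NeZero q] [NeZero (M * q)] (hqM : ¬ q ∣ M) (hq3 : ¬ 3 ∣ q)
  {m : ℕ} (hm0 : m ≠ 0) (hm6 : Nat.Coprime m 6)
  (L1 : IntermediateField ℚ Qb)
  [IsDiscreteValuationRing ↥(A.comap (algebraMap ↥L1 Qb))]
  [CharP (ResidueField ↥(A.comap (algebraMap ↥L1 Qb))) q]
  (h3O : IsUnit (3 : ↥(A.comap (algebraMap ↥L1 Qb))))
  {π : ↥(A.comap (algebraMap ↥L1 Qb))} (hπ : Irreducible π)

include hA hq3 hm0 hm6 in
/-- **[b] BRIDGE** (twin of `twft_br_pow`, `3 ∤ q`): `ν z = 0 = δ z` ⟹ the Gauss reduction of a unit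
model `x` of a representing function of `z` becomes an `m`-th power in `F_M(kA)` after extending the
constants to `kA`. -/
theorem m59h2_twft_br_pow {z : JZero (M * q)} (hz : m • z = 0)
    (hν : twfr_nu A M q hq.out hqM m z = 0) (hδ : twfr_delta A M q m z = 0)
    {x : ↥(s44mz_VF (A.comap (algebraMap ↥L1 Qb)) hπ M q)} (hx : IsUnit x)
    (hrep : s44f_Rep (M * q) m z (ssm_al_iotaF ↥L1 (M * q) (x : ↥(lg_F ↥L1 (M * q))))) :
    ∃ h : LaurentSeries (ResidueField ↥A), h ∈ lg_F (ResidueField ↥A) M ∧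
      coeffMap (s44nlr_kappa A L1)
        (gq_res ↥(A.comap (algebraMap ↥L1 Qb)) ↥L1
          ⟨((x : ↥(lg_F ↥L1 (M * q))) : LaurentSeries ↥L1), x.2⟩) = h ^ m := by
  have hFb := twft_br_fbar A hA M hqM L1 hπ hx hrep
  obtain ⟨g, hg0, hg⟩ := m59h2_twfr_pow_of_nu_delta A hA M hqM hq3 hm0 hm6 hz hν hδ hFb
  refine ⟨(g : LaurentSeries (ResidueField ↥A)), g.2, ?_⟩
  rw [← s44nlr_red_coe A hA M hqM L1 hπ x, hg]
  rfl

include hA hq3 hm0 hm6 in
/-- **[b]+[c]** (twin of `twft_br_hred`): the normalised `V₁`-reduction of `ι₃ x0` (`x0` a model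
over `L1` of a representing function of `z`, `ν z = 0 = δ z`) is a constant times an `m`-th power in
`κ'(L1)`. -/
theorem m59h2_twft_br_hred (hqm : ¬ q ∣ m) {z : JZero (M * q)} (hz : m • z = 0)
    (hν : twfr_nu A M q hq.out hqM m z = 0) (hδ : twfr_delta A M q m z = 0)
    {x0 : ↥(lg_F ↥L1 (M * q))}
    (hrep : s44f_Rep (M * q) m z (ssm_al_iotaF ↥L1 (M * q) x0)) (n : ℤ)
    (hGU : s35as_IsGU ↥(A.comap (algebraMap ↥L1 Qb))
      ((hs_phiE (L := ↥L1) three_ne_zero (N := M * q) x0 *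
        s35as_pi (π := π) (A.comap (algebraMap ↥L1 Qb))
          (hs_E ↥L1 three_ne_zero (M * q)) ^ (-n) :
          ↥(hs_E ↥L1 three_ne_zero (M * q))) : LaurentSeries ↥L1)) :
    ∃ (k1 : ResidueField ↥(A.comap (algebraMap ↥L1 Qb)))
      (ρ1 : LaurentSeries (ResidueField ↥(A.comap (algebraMap ↥L1 Qb)))), k1 ≠ 0 ∧
      ρ1 ∈ s35kp_kappa (A.comap (algebraMap ↥L1 Qb)) hπ (hs_E ↥L1 three_ne_zero M)
        (hsa_E_le_quotField three_ne_zero (A.comap (algebraMap ↥L1 Qb)) M h3O) ∧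
      s35as_red ↥(A.comap (algebraMap ↥L1 Qb))
        ((hs_phiE (L := ↥L1) three_ne_zero (N := M * q) x0 *
          s35as_pi (π := π) (A.comap (algebraMap ↥L1 Qb))
            (hs_E ↥L1 three_ne_zero (M * q)) ^ (-n) :
            ↥(hs_E ↥L1 three_ne_zero (M * q))) : LaurentSeries ↥L1) =
        algebraMap _ _ k1 * ρ1 ^ m := by
  have hπL : ((π : ↥(A.comap (algebraMap ↥L1 Qb))) : ↥L1) ≠ 0 :=
    fun h => hπ.ne_zero (Subtype.ext h)
  obtain ⟨y, hy⟩ : ∃ y : ↥(lg_F ↥L1 (M * q)),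
      y = algebraMap ↥L1 ↥(lg_F ↥L1 (M * q))
        (((π : ↥(A.comap (algebraMap ↥L1 Qb))) : ↥L1) ^ (-n)) * x0 := ⟨_, rfl⟩
  have hphi : hs_phiE (L := ↥L1) three_ne_zero (N := M * q) y =
      hs_phiE (L := ↥L1) three_ne_zero (N := M * q) x0 *
        s35as_pi (π := π) (A.comap (algebraMap ↥L1 Qb))
          (hs_E ↥L1 three_ne_zero (M * q)) ^ (-n) := by
    rw [hy, map_mul, AlgHom.commutes, map_zpow₀]
    exact mul_comm _ _
  rw [← hphi] at hGU ⊢
  have hyV : y ∈ s44mz_VF (A.comap (algebraMap ↥L1 Qb)) hπ M q :=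
    (m59h2t_phi_mem_iff three_ne_zero (A.comap (algebraMap ↥L1 Qb)) h3O hπ M q y).1 hGU.1
  have hy0 : y ≠ 0 := by
    rintro rfl
    exact hGU.ne_zero (by rw [map_zero]; rfl)
  have hyinvV : y⁻¹ ∈ s44mz_VF (A.comap (algebraMap ↥L1 Qb)) hπ M q := by
    refine (m59h2t_phi_mem_iff three_ne_zero (A.comap (algebraMap ↥L1 Qb)) h3O hπ M q y⁻¹).1 ?_
    have h1 := hGU.inv_bdd
    have h2 : ((hs_phiE (L := ↥L1) three_ne_zero (N := M * q) y⁻¹ :
          ↥(hs_E ↥L1 three_ne_zero (M * q))) : LaurentSeries ↥L1) =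
        ((hs_phiE (L := ↥L1) three_ne_zero (N := M * q) y :
          ↥(hs_E ↥L1 three_ne_zero (M * q))) : LaurentSeries ↥L1)⁻¹ := by
      rw [map_inv₀]
      rfl
    have h3' : gq_IsBdd ↥(A.comap (algebraMap ↥L1 Qb)) ↥L1
        ((hs_phiE (L := ↥L1) three_ne_zero (N := M * q) y⁻¹ :
          ↥(hs_E ↥L1 three_ne_zero (M * q))) : LaurentSeries ↥L1) := by
      rw [h2]
      exact h1
    exact h3'
  have hunit : IsUnit (⟨y, hyV⟩ : ↥(s44mz_VF (A.comap (algebraMap ↥L1 Qb)) hπ M q)) :=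
    isUnit_iff_exists_inv.2 ⟨⟨y⁻¹, hyinvV⟩, Subtype.ext (mul_inv_cancel₀ hy0)⟩
  have hrepy : s44f_Rep (M * q) m z (ssm_al_iotaF ↥L1 (M * q) y) := by
    rw [hy]
    exact twft_br_rep_const M L1 (zpow_ne_zero _ hπL) hrep
  obtain ⟨h, hh, hpow⟩ := m59h2_twft_br_pow A hA M hqM hq3 hm0 hm6 L1 hπ hz hν hδ
    (x := ⟨y, hyV⟩) hunit hrepy
  haveI : CharP (ResidueField ↥A) q := jcr_charP A hA
  have hmk : ((m : ℕ) : ResidueField ↥A) ≠ 0 := by
    rw [Ne, CharP.cast_eq_zero_iff (ResidueField ↥A) q m]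
    exact hqm
  exact m59h2t_root_desc_F three_ne_zero (A.comap (algebraMap ↥L1 Qb)) h3O hπ M q hqM
    (s44nlr_kappa A L1) hmk ⟨y, hyV⟩ hunit hh hpow

/-- the Atkin–Lehner involution of the cover on `ι₃ F_{M q}`: `W_E (ι₃ x) = ι₃ (W_F x)` (twin of
`twft_br_W`). -/
theorem m59h2_twft_br_W (x0 : ↥(lg_F ↥L1 (M * q))) :
    ssm_fh_W (L := ↥L1) three_ne_zero M q hq3 hqM
        (hs_phiE (L := ↥L1) three_ne_zero (N := M * q) x0) =
      hs_phiE (L := ↥L1) three_ne_zero (N := M * q) (ssm_al_W ↥L1 M q hq.out hqM x0) := by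
  apply Subtype.ext
  exact ss2_dp_coe_WEH_phi ↥L1 three_ne_zero M q hq3 hqM x0 _

include hA hm0 hm6 in
/-- **the normal form at a level** (twin of `twft_nf_at`): for a model `x0` over `L1` (a number
field level with `ζ_{3M}`, `q` a uniformiser, `3 ∤ q`) of a representing function of `z` with
`ν = δ = 0` at `z` and at `W_q z`: `ι₃ x0 = c · R^m · g'` with `g'` of constant reductions at both
Gauss valuations. -/
theorem m59h2_twft_nf_at (hqm : ¬ q ∣ m) [NumberField ↥L1]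
    (hπq : Irreducible ((q : ℕ) : ↥(A.comap (algebraMap ↥L1 Qb))))
    (ζ : ↥L1) (hζ : IsPrimitiveRoot ζ (3 * M))
    {z : JZero (M * q)} (hz : m • z = 0)
    (hν : twfr_nu A M q hq.out hqM m z = 0)
    (hνW : twfr_nu A M q hq.out hqM m (s44w_WJ M q hq.out hqM z) = 0)
    (hδ : twfr_delta A M q m z = 0)
    (hδW : twfr_delta A M q m (s44w_WJ M q hq.out hqM z) = 0)
    {x0 : ↥(lg_F ↥L1 (M * q))}
    (hrep : s44f_Rep (M * q) m z (ssm_al_iotaF ↥L1 (M * q) x0)) :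
    ∃ (c : ↥L1) (R g' : ↥(hs_E ↥L1 three_ne_zero (M * q))), c ≠ 0 ∧ R ≠ 0 ∧ g' ≠ 0 ∧
      hs_phiE (L := ↥L1) three_ne_zero (N := M * q) x0 =
        algebraMap ↥L1 ↥(hs_E ↥L1 three_ne_zero (M * q)) c * R ^ m * g' ∧
      (∀ v : Place ↥L1 ↥(hs_E ↥L1 three_ne_zero (M * q)), (m : ℤ) ∣ v.ord g') ∧
      s35h_ConstRed three_ne_zero (A.comap (algebraMap ↥L1 Qb)) h3O hπq M q hq3 hqM g' := by
  obtain ⟨hG0, hordG⟩ := m59h2t_ord_rep ↥L1 three_ne_zero (M * q) hrep x0 rfl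
  have hzW : m • s44w_WJ M q hq.out hqM z = 0 := twf_w_WJ_tors M q hq.out hqM m z hz
  have hrepW := twft_br_rep_W M hqM L1 (m := m) hrep
  have hred1 := fun (n1 : ℤ) h =>
    m59h2_twft_br_hred A hA M hqM hq3 hm0 hm6 L1 h3O hπq hqm hz hν hδ hrep n1 h
  have hred2 : ∀ n2 : ℤ,
      s35as_IsGU ↥(A.comap (algebraMap ↥L1 Qb))
        ((ssm_fh_W (L := ↥L1) three_ne_zero M q hq3 hqM
            (hs_phiE (L := ↥L1) three_ne_zero (N := M * q) x0) *
          s35as_pi (π := ((q : ℕ) : ↥(A.comap (algebraMap ↥L1 Qb))))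
            (A.comap (algebraMap ↥L1 Qb)) (hs_E ↥L1 three_ne_zero (M * q)) ^ (-n2) :
          ↥(hs_E ↥L1 three_ne_zero (M * q))) : LaurentSeries ↥L1) →
      ∃ (k2 : ResidueField ↥(A.comap (algebraMap ↥L1 Qb)))
        (ρ2 : LaurentSeries (ResidueField ↥(A.comap (algebraMap ↥L1 Qb)))), k2 ≠ 0 ∧
        ρ2 ∈ s35kp_kappa (A.comap (algebraMap ↥L1 Qb)) hπq (hs_E ↥L1 three_ne_zero M)
          (hsa_E_le_quotField three_ne_zero (A.comap (algebraMap ↥L1 Qb)) M h3O) ∧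
        s35as_red ↥(A.comap (algebraMap ↥L1 Qb))
          ((ssm_fh_W (L := ↥L1) three_ne_zero M q hq3 hqM
              (hs_phiE (L := ↥L1) three_ne_zero (N := M * q) x0) *
            s35as_pi (π := ((q : ℕ) : ↥(A.comap (algebraMap ↥L1 Qb))))
              (A.comap (algebraMap ↥L1 Qb)) (hs_E ↥L1 three_ne_zero (M * q)) ^ (-n2) :
            ↥(hs_E ↥L1 three_ne_zero (M * q))) : LaurentSeries ↥L1) =
          algebraMap _ _ k2 * ρ2 ^ m := by
    intro n2 h
    rw [m59h2_twft_br_W M hqM hq3 L1 x0] at h ⊢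
    exact m59h2_twft_br_hred A hA M hqM hq3 hm0 hm6 L1 h3O hπq hqm hzW hνW hδW hrepW n2 h
  have hcomp := fun (n1 n2 : ℤ) h1 h2 =>
    m59h2_twft_cl_hcomp ↥L1 three_ne_zero (A.comap (algebraMap ↥L1 Qb)) h3O M q hq3 hqM hπq ζ hζ
      m hm0 _ hG0 hordG n1 n2 h1 h2 (hred1 n1 h1)
  obtain ⟨c, R, g', hc0, hR0, hg'0, hgd, hcr⟩ :=
    m59h2t_comp_lift_kappa three_ne_zero (A.comap (algebraMap ↥L1 Qb)) h3O hπq M q hq3 hqM m hm0
      (hs_phiE (L := ↥L1) three_ne_zero (N := M * q) x0) hG0 hcomp hred1 hred2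
  refine ⟨c, R, g', hc0, hR0, hg'0, hgd, ?_, hcr⟩
  intro v
  have hcE : algebraMap ↥L1 ↥(hs_E ↥L1 three_ne_zero (M * q)) c ≠ 0 := by
    rw [Ne, map_eq_zero]
    exact hc0
  have h1 := congrArg v.ord hgd
  rw [v.ord_mul (mul_ne_zero hcE (pow_ne_zero m hR0)) hg'0,
    v.ord_mul hcE (pow_ne_zero m hR0), hw_ord_algebraMap, zero_add, ← zpow_natCast,
    v.ord_zpow] at h1
  have h2 : v.ord g' =
      v.ord (hs_phiE (L := ↥L1) three_ne_zero (N := M * q) x0) - (m : ℤ) * v.ord R := by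
    rw [h1]; ring
  rw [h2]
  exact dvd_sub (hordG v) (dvd_mul_right _ _)

end Bridge

section NormalForm

variable (A : ValuationSubring Qb) {q : ℕ} [hq : Fact q.Prime] (hA : A.LiesOverPrime q)
  (M : ℕ) [NeZero M] [NeZero q] [NeZero (M * q)] (hqM : ¬ q ∣ M) (hq3 : ¬ 3 ∣ q)
  {m : ℕ} (hm0 : m ≠ 0) (hm6 : Nat.Coprime m 6) (hqm : ¬ q ∣ m)

include hA hm0 hm6 hqm in
/-- **(Z7)/(Z8) NORMAL FORM, HESSE COVER** (twin of `twft_normal_form`, `3 ∤ q`).  `z ∈ J₀(M q)[m]`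
fixed by `I_A` with `ν = 0 = δ` at `z` and at `W_q z`; `T` a finite set of `I_A`-fixed constants.
Then `z` has a representative `f` which descends to an unramified level `L1 ⊇ T ∪ {ζ_{3M}}`:
`f = c₀ · r₀^m · bc g1`, and on the Hesse cover `ι₃ g1 = k · R^m · g'` with all orders of `g'`
divisible by `m` and CONSTANT reductions of `g'` at both Gauss valuations. -/
theorem m59h2_twft_normal_form (T : Finset Qb)
    (hT : ∀ t ∈ T, ∀ s ∈ A.inertiaSubgroupIn ℚ, s t = t)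
    {z : JZero (M * q)} (hz : m • z = 0)
    (hfix : ∀ σ ∈ A.inertiaSubgroupIn ℚ, σ • z = z)
    (hν : twfr_nu A M q hq.out hqM m z = 0)
    (hνW : twfr_nu A M q hq.out hqM m (s44w_WJ M q hq.out hqM z) = 0)
    (hδ : twfr_delta A M q m z = 0)
    (hδW : twfr_delta A M q m (s44w_WJ M q hq.out hqM z) = 0) :
    ∃ f : modularFunctionFieldBar (M * q), s44f_Rep (M * q) m z f ∧
      ∃ L1 : IntermediateField ℚ Qb, s35d_IsLevel A q L1 ∧ (↑T : Set Qb) ⊆ L1 ∧
        (∃ ζ : ↥L1, IsPrimitiveRoot ζ (3 * M)) ∧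
        ∃ (g1 : laurentBaseChange L1 (modularFunctionFieldFull (M * q))) (c₀ : Qb)
          (r₀ : modularFunctionFieldBar (M * q)), g1 ≠ 0 ∧ c₀ ≠ 0 ∧ r₀ ≠ 0 ∧
          f = algebraMap Qb (modularFunctionFieldBar (M * q)) c₀ * r₀ ^ m *
            dsc_bcHom L1 Qb (modularFunctionFieldFull (M * q)) g1 ∧
          (∀ w : Place L1 (laurentBaseChange L1 (modularFunctionFieldFull (M * q))),
            (m : ℤ) ∣ w.ord g1) ∧
          ∀ [IsDiscreteValuationRing ↥(A.comap (algebraMap ↥L1 Qb))]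
            [CharP (ResidueField ↥(A.comap (algebraMap ↥L1 Qb))) q]
            (h3O : IsUnit (3 : ↥(A.comap (algebraMap ↥L1 Qb))))
            (hπ : Irreducible ((q : ℕ) : ↥(A.comap (algebraMap ↥L1 Qb)))),
            ∃ (k : ↥L1) (R g' : ↥(hs_E ↥L1 three_ne_zero (M * q))), k ≠ 0 ∧ R ≠ 0 ∧ g' ≠ 0 ∧
              ss2_dp_iotaH ↥L1 three_ne_zero (M * q) g1 =
                algebraMap ↥L1 ↥(hs_E ↥L1 three_ne_zero (M * q)) k * R ^ m * g' ∧
              (∀ v : Place ↥L1 ↥(hs_E ↥L1 three_ne_zero (M * q)), (m : ℤ) ∣ v.ord g') ∧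
              s35h_ConstRed three_ne_zero (A.comap (algebraMap ↥L1 Qb)) h3O hπ M q hq3 hqM
                g' := by
  classical
  haveI : NeZero (3 * M) := ⟨Nat.mul_ne_zero (by norm_num) (NeZero.ne M)⟩
  obtain ⟨ζ', hζ'⟩ : ∃ ζ' : Qb, IsPrimitiveRoot ζ' (3 * M) :=
    HasEnoughRootsOfUnity.exists_primitiveRoot Qb (3 * M)
  have hq3M : ¬ q ∣ 3 * M := by
    intro h
    rcases (Nat.Prime.dvd_mul hq.out).1 h with h | h
    · have : q = 3 := (Nat.prime_dvd_prime_iff_eq hq.out Nat.prime_three).1 h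
      exact hq3 (this ▸ dvd_rfl)
    · exact hqM h
  have hζfix : ∀ s ∈ A.inertiaSubgroupIn ℚ, s ζ' = ζ' := fun s hs =>
    s35d_root_fixed A q hA hq3M hζ'.pow_eq_one hs
  have hT' : ∀ t ∈ insert ζ' T, ∀ s ∈ A.inertiaSubgroupIn ℚ, s t = t := by
    intro t ht s hs
    rcases Finset.mem_insert.1 ht with rfl | ht
    · exact hζfix s hs
    · exact hT t ht s hs
  obtain ⟨f, hrep, L1, hlev, hT'L1, g1, c₀, r₀, hg1, hc₀, hr₀, hfeq, hordg1⟩ :=
    twfc_desc A hA (M * q) hm0 (insert ζ' T) hT' hz hfix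
  have hTL1 : (↑T : Set Qb) ⊆ L1 := fun x hx => hT'L1 (by
    rw [Finset.coe_insert]; exact Set.mem_insert_of_mem _ hx)
  have hζL1 : ζ' ∈ L1 := hT'L1 (by rw [Finset.coe_insert]; exact Set.mem_insert _ _)
  have hζ1 : IsPrimitiveRoot (L1.val (⟨ζ', hζL1⟩ : L1)) (3 * M) := hζ'
  have hζ2 : IsPrimitiveRoot (⟨ζ', hζL1⟩ : L1) (3 * M) :=
    IsPrimitiveRoot.of_map_of_injective hζ1 Subtype.val_injective
  refine ⟨f, hrep, L1, hlev, hTL1, ⟨_, hζ2⟩, g1, c₀, r₀, hg1, hc₀, hr₀, hfeq, hordg1, ?_⟩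
  intro _ _ h3O hπ
  haveI : NumberField ↥L1 := { to_charZero := inferInstance, to_finiteDimensional := hlev.fd }
  -- the model over `L1`, in the `lg_F` vocabulary
  obtain ⟨x0, hx0⟩ : ∃ x0 : ↥(lg_F ↥L1 (M * q)),
      (x0 : LaurentSeries ↥L1) = (g1 : LaurentSeries ↥L1) :=
    ⟨⟨(g1 : LaurentSeries ↥L1), ss2_dp_mem_lgF ↥L1 (M * q) g1.2⟩, rfl⟩
  have hbc : ssm_al_iotaF ↥L1 (M * q) x0 =
      dsc_bcHom ↥L1 Qb (modularFunctionFieldFull (M * q)) g1 := by
    apply Subtype.ext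
    show ssm_al_iota ↥L1 (x0 : LaurentSeries ↥L1) = _
    rw [hx0]
    rfl
  have hι : ss2_dp_iotaH ↥L1 three_ne_zero (M * q) g1 =
      hs_phiE (L := ↥L1) three_ne_zero (N := M * q) x0 := by
    apply Subtype.ext
    show qExpand ↥L1 3 (g1 : LaurentSeries ↥L1) = qExpand ↥L1 3 (x0 : LaurentSeries ↥L1)
    rw [hx0]
  have hrep0 : s44f_Rep (M * q) m z (ssm_al_iotaF ↥L1 (M * q) x0) := by
    rw [hbc]
    have e : f = algebraMap Qb (modularFunctionFieldBar (M * q)) c₀ *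
        dsc_bcHom ↥L1 Qb (modularFunctionFieldFull (M * q)) g1 * r₀ ^ m := by
      rw [hfeq]; ring
    rw [e] at hrep
    exact (s44b_rep_pth (M * q) hc₀ hr₀).1 hrep
  rw [hι]
  exact m59h2_twft_nf_at A hA M hqM hq3 hm0 hm6 L1 h3O hqm hπ ⟨ζ', hζL1⟩ hζ2 hz hν hνW hδ hδW
    hrep0

end NormalForm

end Fermat.Agent.M59

end
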