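/-
M59 / box [C] Mazur at `q = 2`, HESSE PORT, cluster D-TORIC (helper29).  Prefix `m59h2_`.

Twins of `TW/Easy/Asm/ToricAdapter.lean` (`twf_nu_delta_W`, `twf_toricW_of_sep`),
`TW/Easy/Asm/ToricWAdapter.lean` (`twf_toricW_of_sep_comm`) and `TW/Easy/ToricW/MainJ.lean`
(`twfj_toricW_at`, `twfj_toricW`) with main's `q ≠ 2` replaced by `¬ 3 ∣ q` (Hesse cover):

**(Z8) AT `3 ∤ q`: `m59h2_twfj_toricW : twf_ToricW_stmt A M hqM m (-1)`** (main's cover-free Prop of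
`TW/Easy/GeoSeam.lean`, literally), for `A` over a prime `q ∤ 3 M`, `m ≠ 0` prime to `6 q`.
At `(q, m) = (2, 5)` this is component (Z8) of `m59mz_Geo M hqM 5` (`M59/Mazur/Seams.lean`):
`m59h2_twfj_toricW_two_five`.
-/
import Mathlib
import Fermat.Agent.TW.Easy.ToricW.MainJ
import Fermat.Agent.M59.Hesse2.Res.HesMain
import Fermat.Agent.M59.Hesse2.Toric.HesNormalForm
import Fermat.Agent.M59.Hesse2.Toric.HesClassW
import Fermat.Agent.M59.Hesse2.Toric.HesWToric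

set_option autoImplicit false
set_option linter.unusedSectionVars false
set_option linter.unusedVariables false
set_option linter.style.haveILetI false
set_option synthInstance.maxHeartbeats 400000
set_option maxHeartbeats 1000000

noncomputable section

namespace Fermat.Agent.M59

open ModularCurve AlgebraicCurve IntermediateField IsLocalRing
open Fermat.Agent.JT3 Fermat.Agent.SS Fermat.Agent.S35 Fermat.Agent.S24 Fermat.Agent.S44
  Fermat.Agent.SS2 Fermat.Agent.S43 Fermat.Agent.TW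

local notation "Qb" => AlgebraicClosure ℚ
local notation "GQ" => (AlgebraicClosure ℚ ≃ₐ[ℚ] AlgebraicClosure ℚ)

/-! ### the adapters -/

section Adapters

variable (A : ValuationSubring Qb) {q : ℕ} [hq : Fact q.Prime] (hA : A.LiesOverPrime q)
  (M : ℕ) [NeZero M] [NeZero q] [NeZero (M * q)] (hqM : ¬ q ∣ M) (hq3 : ¬ 3 ∣ q)
  {m : ℕ} (hm0 : m ≠ 0) (hm6 : Nat.Coprime m 6)

include hA hq3 hm0 hm6

/-- `W_q z = ± z`, `ν z = 0`, `δ z = 0` ⟹ `ν (W_q z) = 0` and `δ (W_q z) = 0` (twin of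
`twf_nu_delta_W`). -/
theorem m59h2_twf_nu_delta_W {z : JZero (M * q)} (hz : m • z = 0)
    (hW : s44w_WJ M q hq.out hqM z = z ∨ s44w_WJ M q hq.out hqM z = -z)
    (hν : twfr_nu A M q hq.out hqM m z = 0) (hδ : twfr_delta A M q m z = 0) :
    twfr_nu A M q hq.out hqM m (s44w_WJ M q hq.out hqM z) = 0 ∧
      twfr_delta A M q m (s44w_WJ M q hq.out hqM z) = 0 := by
  have hνn : twfr_nu A M q hq.out hqM m (-z) = 0 := by
    rw [twf_add_neg (twf_torsSub M q m) (twfr_nu A M q hq.out hqM m)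
      (fun z hz z' hz' => twfr_nu_add A hA M hqM hm0 hz hz') z hz, hν, neg_zero]
  have hδn : twfr_delta A M q m (-z) = 0 := by
    rw [twf_add_neg (twf_kerNu M q hqM A hA hm0) (twfr_delta A M q m)
      (fun z hz z' hz' =>
        m59h2_twfr_delta_add_of_nu A hA M hqM hq3 hm0 hm6 hz.1 hz'.1 hz.2 hz'.2)
      z ⟨hz, hν⟩, hδ, neg_zero]
  rcases hW with h | h <;> rw [h]
  · exact ⟨hν, hδ⟩
  · exact ⟨hνn, hδn⟩

/-- **(Z8) adapter, sign `-1`** (twin of `twf_toricW_of_sep`): the separate-hypotheses form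
`φ z + q W_q z = 0` gives GeoSeam's cell `twf_ToricW_stmt A M hqM m (-1)`. -/
theorem m59h2_twf_toricW_of_sep
    (hT : ∀ φ : GQ, A.IsFrobeniusAt φ q → ∀ z : JZero (M * q), m • z = 0 →
      (∀ s ∈ A.inertiaSubgroupIn ℚ, s • z = z) →
      twfr_nu A M q hq.out hqM m z = 0 →
      twfr_nu A M q hq.out hqM m (s44w_WJ M q hq.out hqM z) = 0 →
      twfr_delta A M q m z = 0 → twfr_delta A M q m (s44w_WJ M q hq.out hqM z) = 0 →
      φ • z + q • s44w_WJ M q hq.out hqM z = 0) :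
    twf_ToricW_stmt A M hqM m (-1) := by
  intro φ hφ z hz hfix hW hν hδ
  obtain ⟨hνW, hδW⟩ := m59h2_twf_nu_delta_W A hA M hqM hq3 hm0 hm6 hz hW hν hδ
  have h := hT φ hφ z hz hfix hν hνW hδ hδW
  rw [eq_neg_of_add_eq_zero_left h, neg_one_mul, neg_smul, natCast_zsmul]

/-- **(Z8) adapter, `class_of_ff` shape** (twin of `twf_toricW_of_sep_comm`): the
separate-hypotheses form `W_q (φ z) + q z = 0` gives GeoSeam's cell
`twf_ToricW_stmt A M hqM m (-1)`. -/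
theorem m59h2_twf_toricW_of_sep_comm
    (hT : ∀ φ : GQ, A.IsFrobeniusAt φ q → ∀ z : JZero (M * q), m • z = 0 →
      (∀ s ∈ A.inertiaSubgroupIn ℚ, s • z = z) →
      twfr_nu A M q hq.out hqM m z = 0 →
      twfr_nu A M q hq.out hqM m (s44w_WJ M q hq.out hqM z) = 0 →
      twfr_delta A M q m z = 0 → twfr_delta A M q m (s44w_WJ M q hq.out hqM z) = 0 →
      s44w_WJ M q hq.out hqM (φ • z) + q • z = 0) :
    twf_ToricW_stmt A M hqM m (-1) :=
  m59h2_twf_toricW_of_sep A hA M hqM hq3 hm0 hm6 (fun φ hφ z hz hfix h1 h2 h3 h4 =>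
    twf_w_swap M q hq.out hqM hm0 φ z hz q (hT φ hφ z hz hfix h1 h2 h3 h4))

end Adapters

/-! ### the final glue at the level of classes -/

section Glue

variable (A : ValuationSubring Qb) {q : ℕ} [hq : Fact q.Prime] (hA : A.LiesOverPrime q)
  (M : ℕ) [NeZero M] [NeZero q] [NeZero (M * q)] (hqM : ¬ q ∣ M) (hq3 : ¬ 3 ∣ q)

include hA hq3 in
/-- **(Z8)-J at `(A, φ)`, Hesse cover** (twin of `twfj_toricW_at`): on `I_A`-fixed
`z ∈ J₀(M q)[m]` with `ν = 0 = δ` at `z` and at `W_q z`, `W_q (φ z) + q z = 0`. -/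
theorem m59h2_twfj_toricW_at (φ : GQ) (hφ : A.IsFrobeniusAt φ q) {m : ℕ} (hm0 : m ≠ 0)
    (hm6 : Nat.Coprime m 6) (hqm : ¬ q ∣ m)
    (z : JZero (M * q)) (hz : m • z = 0) (hfix : ∀ s ∈ A.inertiaSubgroupIn ℚ, s • z = z)
    (hν : twfr_nu A M q hq.out hqM m z = 0)
    (hνW : twfr_nu A M q hq.out hqM m (s44w_WJ M q hq.out hqM z) = 0)
    (hδ : twfr_delta A M q m z = 0)
    (hδW : twfr_delta A M q m (s44w_WJ M q hq.out hqM z) = 0) :
    s44w_WJ M q hq.out hqM (φ • z) + q • z = 0 := by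
  have hqq : q.Prime := hq.out
  obtain ⟨f, hrep, L1, hlev, -, ⟨ζ, hζ⟩, g1, c₀, r₀, hg1, hc₀, hr₀, hfeq, hordg1, hnf⟩ :=
    m59h2_twft_normal_form A hA M hqM hq3 hm0 hm6 hqm ∅ (by simp) hz hfix hν hνW hδ hδW
  haveI : NumberField ↥L1 := { to_charZero := inferInstance, to_finiteDimensional := hlev.fd }
  haveI hdvr : IsDiscreteValuationRing ↥(A.comap (algebraMap ↥L1 Qb)) := hlev.dvr
  have hmem := lg_natCast_mem_maximalIdeal A hA ↥L1
  haveI : CharP (ResidueField ↥(A.comap (algebraMap ↥L1 Qb))) q := ss_nfl_charP_residue hmem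
  -- `3` is a unit at `A ∩ L1`
  have h3q : Nat.Coprime 3 q :=
    (Nat.Prime.coprime_iff_not_dvd Nat.prime_three).2 hq3
  have h3O : IsUnit (3 : ↥(A.comap (algebraMap ↥L1 Qb))) := by
    have h := lg_isUnit_natCast hmem h3q
    rwa [Nat.cast_ofNat] at h
  obtain ⟨k, R, g', hk, hR, hg', hι, hordg', hcr⟩ := hnf h3O hlev.irr
  -- the restriction of `φ`
  set σ1 : ↥L1 ≃ₐ[ℚ] ↥L1 := hlev.res φ hφ.mem_decompositionSubgroup with hσ1
  have hσ1c : ∀ x : ↥L1, algebraMap ↥L1 Qb (σ1 x) = φ (algebraMap ↥L1 Qb x) := fun x =>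
    hlev.res_coe φ hφ.mem_decompositionSubgroup x
  have hmu : IsUnit ((m : ℕ) : ↥(A.comap (algebraMap ↥L1 Qb))) :=
    lg_isUnit_natCast hmem ((Nat.Prime.coprime_iff_not_dvd hqq).2 hqm).symm
  have hF := s35ti_frobAt_of_frobenius A φ hφ L1 σ1.toRingEquiv (fun x => hσ1c x)
  -- `ζ₃ ∈ L1`
  have hζ3 : IsPrimitiveRoot (ζ ^ M) 3 :=
    hζ.pow (Nat.mul_pos (by norm_num) (Nat.pos_of_ne_zero (NeZero.ne M))) (mul_comm 3 M)
  -- the SWAP toric identity over `(L1, φ|L1)`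
  have hTor : m59h2_twfw_ff_ToricWAt three_ne_zero (A.comap (algebraMap ↥L1 Qb)) h3O hlev.irr
      M q hq3 hqM σ1.toRingEquiv m :=
    m59h2_twfw_ff_leg_toricWAt ↥L1 three_ne_zero (A.comap (algebraMap ↥L1 Qb)) h3O M q hq3 hqM
      hlev.irr ζ hζ σ1.toRingEquiv hF m hmu
  obtain ⟨c, r, hr, hid⟩ := hTor g' hg' hordg' hcr
  exact m59h2_twfc_class_of_ff_W ↥L1 three_ne_zero M q hq3 hqM φ σ1 hσ1c hζ3 hm0 q hrep g1 hg1
    hordg1 hc₀ hr₀ hfeq hι hid

include hA hq3 in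
/-- **(Z8)-J at `3 ∤ q`**: GeoSeam's `twf_ToricW_stmt A M hqM m (-1)` (twin of `twfj_toricW`). -/
theorem m59h2_twfj_toricW {m : ℕ} (hm0 : m ≠ 0) (hm6 : Nat.Coprime m 6)
    (hqm : ¬ q ∣ m) : twf_ToricW_stmt A M hqM m (-1) :=
  m59h2_twf_toricW_of_sep_comm A hA M hqM hq3 hm0 hm6 (fun φ hφ z hz hfix h1 h2 h3 h4 =>
    m59h2_twfj_toricW_at A hA M hqM hq3 φ hφ hm0 hm6 hqm z hz hfix h1 h2 h3 h4)

include hA in
/-- **component (Z8) of `m59mz_Geo M hqM 5` at `q = 2`** (`M59/Mazur/Seams.lean`). -/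
theorem m59h2_twfj_toricW_two_five (hq2 : q = 2) :
    ∃ s : ℤ, (s = 1 ∨ s = -1) ∧ twf_ToricW_stmt A M hqM 5 s := by
  subst hq2
  have h3 : ¬ 3 ∣ 2 := by norm_num
  have h50 : (5 : ℕ) ≠ 0 := by norm_num
  have h56 : Nat.Coprime 5 6 := by norm_num
  have h25 : ¬ 2 ∣ 5 := by norm_num
  exact ⟨-1, Or.inr rfl, m59h2_twfj_toricW A hA M hqM h3 (m := 5) h50 h56 h25⟩

end Glue

end Fermat.Agent.M59

end
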