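/-
M59 / box [C] Mazur at `q = 2`, HESSE PORT, cluster D-TORIC, GENERIC EXPONENT (helper29).
Prefix `m59h2g_`.

**(Z8) ON THE HESSE COVER FOR EVERY EXPONENT `m ≠ 0`, `q ∤ m`, FROM (E2-ord) ALONE.**
The landed twins `m59h2_twft_*`, `m59h2_twfj_*` (`HesNormalForm.lean`, `HesMainJ.lean`) consume
`Nat.Coprime m 6` ONLY through the two A-RES lemmas `m59h2_twfr_pow_of_nu_delta` and
`m59h2_twfr_delta_add_of_nu`, and these follow from main's cover-free Prop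
`twfr_OrdOff A hA M hqM m` ((E2-ord), `TW/Easy/Res/OrdMain.lean`).  This file is the SAME chain with
`(hm6 : Nat.Coprime m 6)` replaced by `(hOrd : twfr_OrdOff A hA M hqM m)`:

  `m59h2g_twfj_toricW A hA M hqM hq3 hm0 hOrd hqm : twf_ToricW_stmt A M hqM m (-1)`

for `A` over a prime `q`, `3 ∤ q`, `q ∤ M`, `m ≠ 0`, `q ∤ m`.  In particular (Z8) at
`(q, m) = (2, 3)` (cell [GEO-32r]) needs nothing beyond (E2-ord) at exponent `3`.
-/
import Mathlib
import Fermat.Agent.M59.Hesse2.Toric.HesMainJ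

set_option autoImplicit false
set_option linter.unusedSectionVars false
set_option linter.unusedVariables false
set_option linter.style.haveILetI false
set_option synthInstance.maxHeartbeats 400000
set_option maxHeartbeats 1000000

noncomputable section

namespace Fermat.Agent.M59

open Polynomial ModularCurve AlgebraicCurve IntermediateField IsLocalRing
open Fermat.Agent.JT3 Fermat.Agent.SS Fermat.Agent.S35 Fermat.Agent.S24 Fermat.Agent.S44
  Fermat.Agent.SS2 Fermat.Agent.S28 Fermat.Agent.S43 Fermat.Agent.TW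

local notation "Qb" => AlgebraicClosure ℚ
local notation "GQ" => (AlgebraicClosure ℚ ≃ₐ[ℚ] AlgebraicClosure ℚ)

/-! ### the deliverables of F-GEO/RES from (E2-ord) -/

section Res

variable (A : ValuationSubring Qb) {q : ℕ} [hq : Fact q.Prime] (hA : A.LiesOverPrime q)
  (M : ℕ) [NeZero M] [NeZero q] [NeZero (M * q)] (hqM : ¬ q ∣ M)
  {m : ℕ} (hm0 : m ≠ 0) (hOrd : twfr_OrdOff A hA M hqM m)

include hA hqM hm0 hOrd

/-- for ANY `f̄_z`: `ν z = 0 ⟹ m ∣ div f̄_z`. -/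
theorem m59h2g_dvd_all_Fbar {z : JZero (M * q)} (hz : m • z = 0)
    (hν : twfr_nu A M q hq.out hqM m z = 0) {fb : s44e_FF A M} (h : twfr_Fbar A M q m z fb)
    (Q : Place (s44e_kA A) (s44e_FF A M)) : (m : ℤ) ∣ Q.ord fb := by
  have hm := Nat.pos_of_ne_zero hm0
  have h1 := twfr_dvd_all_of A hA M hqM hm0 hOrd hz hν Q
  have h2 := (twfr_nuAll_eq_zero_iff A hq.out hA M hm (s44rd_hmem A hA M hqM)
    (twfr_fbar_spec' A hA M hqM hm0 hz) Q).2 h1
  exact (twfr_nuAll_eq_zero_iff A hq.out hA M hm (s44rd_hmem A hA M hqM) h Q).1 h2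

/-- **`δ` is additive on `J₀(M q)[m] ∩ ker ν`.** -/
theorem m59h2g_delta_add_of_nu {z z' : JZero (M * q)} (hz : m • z = 0) (hz' : m • z' = 0)
    (hν : twfr_nu A M q hq.out hqM m z = 0) (hν' : twfr_nu A M q hq.out hqM m z' = 0) :
    twfr_delta A M q m (z + z') = twfr_delta A M q m z + twfr_delta A M q m z' :=
  twfr_delta_add A hq.out hA M hqM (Nat.pos_of_ne_zero hm0) (s44rd_hmem A hA M hqM) hz hz'
    (twfr_dvd_all_of A hA M hqM hm0 hOrd hz hν) (twfr_dvd_all_of A hA M hqM hm0 hOrd hz' hν')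

/-- on `ker ν`: `δ z = 0 ⟹` EVERY `f̄_z` is an `m`-th power. -/
theorem m59h2g_pow_of_nu_delta {z : JZero (M * q)} (hz : m • z = 0)
    (hν : twfr_nu A M q hq.out hqM m z = 0) (hδ : twfr_delta A M q m z = 0)
    {fb : s44e_FF A M} (h : twfr_Fbar A M q m z fb) :
    ∃ g : s44e_FF A M, g ≠ 0 ∧ fb = g ^ m :=
  twfr_Fbar_pow_of_delta_eq_zero A hq.out hA M hqM (Nat.pos_of_ne_zero hm0)
    (s44rd_hmem A hA M hqM) hz h (m59h2g_dvd_all_Fbar A hA M hqM hm0 hOrd hz hν h) hδ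

end Res

/-! ### the bridge -/

section Bridge

variable (A : ValuationSubring Qb) {q : ℕ} [hq : Fact q.Prime] (hA : A.LiesOverPrime q)
  (M : ℕ) [NeZero M] [NeZero q] [NeZero (M * q)] (hqM : ¬ q ∣ M) (hq3 : ¬ 3 ∣ q)
  {m : ℕ} (hm0 : m ≠ 0) (hOrd : twfr_OrdOff A hA M hqM m)
  (L1 : IntermediateField ℚ Qb)
  [IsDiscreteValuationRing ↥(A.comap (algebraMap ↥L1 Qb))]
  [CharP (ResidueField ↥(A.comap (algebraMap ↥L1 Qb))) q]
  (h3O : IsUnit (3 : ↥(A.comap (algebraMap ↥L1 Qb))))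
  {π : ↥(A.comap (algebraMap ↥L1 Qb))} (hπ : Irreducible π)

include hA hq3 hm0 hOrd in
/-- **[b] BRIDGE** (twin of `twft_br_pow`, `3 ∤ q`): `ν z = 0 = δ z` ⟹ the Gauss reduction of a unit
model `x` of a representing function of `z` becomes an `m`-th power in `F_M(kA)` after extending the
constants to `kA`. -/
theorem m59h2g_twft_br_pow {z : JZero (M * q)} (hz : m • z = 0)
    (hν : twfr_nu A M q hq.out hqM m z = 0) (hδ : twfr_delta A M q m z = 0)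
    {x : ↥(s44mz_VF (A.comap (algebraMap ↥L1 Qb)) hπ M q)} (hx : IsUnit x)
    (hrep : s44f_Rep (M * q) m z (ssm_al_iotaF ↥L1 (M * q) (x : ↥(lg_F ↥L1 (M * q))))) :
    ∃ h : LaurentSeries (ResidueField ↥A), h ∈ lg_F (ResidueField ↥A) M ∧
      coeffMap (s44nlr_kappa A L1)
        (gq_res ↥(A.comap (algebraMap ↥L1 Qb)) ↥L1
          ⟨((x : ↥(lg_F ↥L1 (M * q))) : LaurentSeries ↥L1), x.2⟩) = h ^ m := by
  have hFb := twft_br_fbar A hA M hqM L1 hπ hx hrep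
  obtain ⟨g, hg0, hg⟩ := m59h2g_pow_of_nu_delta A hA M hqM hm0 hOrd hz hν hδ hFb
  refine ⟨(g : LaurentSeries (ResidueField ↥A)), g.2, ?_⟩
  rw [← s44nlr_red_coe A hA M hqM L1 hπ x, hg]
  rfl

include hA hq3 hm0 hOrd in
/-- **[b]+[c]** (twin of `twft_br_hred`): the normalised `V₁`-reduction of `ι₃ x0` (`x0` a model
over `L1` of a representing function of `z`, `ν z = 0 = δ z`) is a constant times an `m`-th power in
`κ'(L1)`. -/
theorem m59h2g_twft_br_hred (hqm : ¬ q ∣ m) {z : JZero (M * q)} (hz : m • z = 0)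
    (hν : twfr_nu A M q hq.out hqM m z = 0) (hδ : twfr_delta A M q m z = 0)
    {x0 : ↥(lg_F ↥L1 (M * q))}
    (hrep : s44f_Rep (M * q) m z (ssm_al_iotaF ↥L1 (M * q) x0)) (n : ℤ)
    (hGU : s35as_IsGU ↥(A.comap (algebraMap ↥L1 Qb))
      ((hs_phiE (L := ↥L1) three_ne_zero (N := M * q) x0 *
        s35as_pi (π := π) (A.comap (algebraMap ↥L1 Qb))
          (hs_E ↥L1 three_ne_zero (M * q)) ^ (-n) :
          ↥(hs_E ↥L1 three_ne_zero (M * q))) : LaurentSeries ↥L1)) :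
    ∃ (k1 : ResidueField ↥(A.comap (algebraMap ↥L1 Qb)))
      (ρ1 : LaurentSeries (ResidueField ↥(A.comap (algebraMap ↥L1 Qb)))), k1 ≠ 0 ∧
      ρ1 ∈ s35kp_kappa (A.comap (algebraMap ↥L1 Qb)) hπ (hs_E ↥L1 three_ne_zero M)
        (hsa_E_le_quotField three_ne_zero (A.comap (algebraMap ↥L1 Qb)) M h3O) ∧
      s35as_red ↥(A.comap (algebraMap ↥L1 Qb))
        ((hs_phiE (L := ↥L1) three_ne_zero (N := M * q) x0 *
          s35as_pi (π := π) (A.comap (algebraMap ↥L1 Qb))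
            (hs_E ↥L1 three_ne_zero (M * q)) ^ (-n) :
            ↥(hs_E ↥L1 three_ne_zero (M * q))) : LaurentSeries ↥L1) =
        algebraMap _ _ k1 * ρ1 ^ m := by
  have hπL : ((π : ↥(A.comap (algebraMap ↥L1 Qb))) : ↥L1) ≠ 0 :=
    fun h => hπ.ne_zero (Subtype.ext h)
  obtain ⟨y, hy⟩ : ∃ y : ↥(lg_F ↥L1 (M * q)),
      y = algebraMap ↥L1 ↥(lg_F ↥L1 (M * q))
        (((π : ↥(A.comap (algebraMap ↥L1 Qb))) : ↥L1) ^ (-n)) * x0 := ⟨_, rfl⟩
  have hphi : hs_phiE (L := ↥L1) three_ne_zero (N := M * q) y =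
      hs_phiE (L := ↥L1) three_ne_zero (N := M * q) x0 *
        s35as_pi (π := π) (A.comap (algebraMap ↥L1 Qb))
          (hs_E ↥L1 three_ne_zero (M * q)) ^ (-n) := by
    rw [hy, map_mul, AlgHom.commutes, map_zpow₀]
    exact mul_comm _ _
  rw [← hphi] at hGU ⊢
  have hyV : y ∈ s44mz_VF (A.comap (algebraMap ↥L1 Qb)) hπ M q :=
    (m59h2t_phi_mem_iff three_ne_zero (A.comap (algebraMap ↥L1 Qb)) h3O hπ M q y).1 hGU.1
  have hy0 : y ≠ 0 := by
    rintro rfl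
    exact hGU.ne_zero (by rw [map_zero]; rfl)
  have hyinvV : y⁻¹ ∈ s44mz_VF (A.comap (algebraMap ↥L1 Qb)) hπ M q := by
    refine (m59h2t_phi_mem_iff three_ne_zero (A.comap (algebraMap ↥L1 Qb)) h3O hπ M q y⁻¹).1 ?_
    have h1 := hGU.inv_bdd
    have h2 : ((hs_phiE (L := ↥L1) three_ne_zero (N := M * q) y⁻¹ :
          ↥(hs_E ↥L1 three_ne_zero (M * q))) : LaurentSeries ↥L1) =
        ((hs_phiE (L := ↥L1) three_ne_zero (N := M * q) y :
          ↥(hs_E ↥L1 three_ne_zero (M * q))) : LaurentSeries ↥L1)⁻¹ := by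
      rw [map_inv₀]
      rfl
    have h3' : gq_IsBdd ↥(A.comap (algebraMap ↥L1 Qb)) ↥L1
        ((hs_phiE (L := ↥L1) three_ne_zero (N := M * q) y⁻¹ :
          ↥(hs_E ↥L1 three_ne_zero (M * q))) : LaurentSeries ↥L1) := by
      rw [h2]
      exact h1
    exact h3'
  have hunit : IsUnit (⟨y, hyV⟩ : ↥(s44mz_VF (A.comap (algebraMap ↥L1 Qb)) hπ M q)) :=
    isUnit_iff_exists_inv.2 ⟨⟨y⁻¹, hyinvV⟩, Subtype.ext (mul_inv_cancel₀ hy0)⟩
  have hrepy : s44f_Rep (M * q) m z (ssm_al_iotaF ↥L1 (M * q) y) := by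
    rw [hy]
    exact twft_br_rep_const M L1 (zpow_ne_zero _ hπL) hrep
  obtain ⟨h, hh, hpow⟩ := m59h2g_twft_br_pow A hA M hqM hq3 hm0 hOrd L1 hπ hz hν hδ
    (x := ⟨y, hyV⟩) hunit hrepy
  haveI : CharP (ResidueField ↥A) q := jcr_charP A hA
  have hmk : ((m : ℕ) : ResidueField ↥A) ≠ 0 := by
    rw [Ne, CharP.cast_eq_zero_iff (ResidueField ↥A) q m]
    exact hqm
  exact m59h2t_root_desc_F three_ne_zero (A.comap (algebraMap ↥L1 Qb)) h3O hπ M q hqM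
    (s44nlr_kappa A L1) hmk ⟨y, hyV⟩ hunit hh hpow

include hA hm0 hOrd in
/-- **the normal form at a level** (twin of `twft_nf_at`): for a model `x0` over `L1` (a number
field level with `ζ_{3M}`, `q` a uniformiser, `3 ∤ q`) of a representing function of `z` with
`ν = δ = 0` at `z` and at `W_q z`: `ι₃ x0 = c · R^m · g'` with `g'` of constant reductions at both
Gauss valuations. -/
theorem m59h2g_twft_nf_at (hqm : ¬ q ∣ m) [NumberField ↥L1]
    (hπq : Irreducible ((q : ℕ) : ↥(A.comap (algebraMap ↥L1 Qb))))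
    (ζ : ↥L1) (hζ : IsPrimitiveRoot ζ (3 * M))
    {z : JZero (M * q)} (hz : m • z = 0)
    (hν : twfr_nu A M q hq.out hqM m z = 0)
    (hνW : twfr_nu A M q hq.out hqM m (s44w_WJ M q hq.out hqM z) = 0)
    (hδ : twfr_delta A M q m z = 0)
    (hδW : twfr_delta A M q m (s44w_WJ M q hq.out hqM z) = 0)
    {x0 : ↥(lg_F ↥L1 (M * q))}
    (hrep : s44f_Rep (M * q) m z (ssm_al_iotaF ↥L1 (M * q) x0)) :
    ∃ (c : ↥L1) (R g' : ↥(hs_E ↥L1 three_ne_zero (M * q))), c ≠ 0 ∧ R ≠ 0 ∧ g' ≠ 0 ∧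
      hs_phiE (L := ↥L1) three_ne_zero (N := M * q) x0 =
        algebraMap ↥L1 ↥(hs_E ↥L1 three_ne_zero (M * q)) c * R ^ m * g' ∧
      (∀ v : Place ↥L1 ↥(hs_E ↥L1 three_ne_zero (M * q)), (m : ℤ) ∣ v.ord g') ∧
      s35h_ConstRed three_ne_zero (A.comap (algebraMap ↥L1 Qb)) h3O hπq M q hq3 hqM g' := by
  obtain ⟨hG0, hordG⟩ := m59h2t_ord_rep ↥L1 three_ne_zero (M * q) hrep x0 rfl
  have hzW : m • s44w_WJ M q hq.out hqM z = 0 := twf_w_WJ_tors M q hq.out hqM m z hz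
  have hrepW := twft_br_rep_W M hqM L1 (m := m) hrep
  have hred1 := fun (n1 : ℤ) h =>
    m59h2g_twft_br_hred A hA M hqM hq3 hm0 hOrd L1 h3O hπq hqm hz hν hδ hrep n1 h
  have hred2 : ∀ n2 : ℤ,
      s35as_IsGU ↥(A.comap (algebraMap ↥L1 Qb))
        ((ssm_fh_W (L := ↥L1) three_ne_zero M q hq3 hqM
            (hs_phiE (L := ↥L1) three_ne_zero (N := M * q) x0) *
          s35as_pi (π := ((q : ℕ) : ↥(A.comap (algebraMap ↥L1 Qb))))
            (A.comap (algebraMap ↥L1 Qb)) (hs_E ↥L1 three_ne_zero (M * q)) ^ (-n2) :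
          ↥(hs_E ↥L1 three_ne_zero (M * q))) : LaurentSeries ↥L1) →
      ∃ (k2 : ResidueField ↥(A.comap (algebraMap ↥L1 Qb)))
        (ρ2 : LaurentSeries (ResidueField ↥(A.comap (algebraMap ↥L1 Qb)))), k2 ≠ 0 ∧
        ρ2 ∈ s35kp_kappa (A.comap (algebraMap ↥L1 Qb)) hπq (hs_E ↥L1 three_ne_zero M)
          (hsa_E_le_quotField three_ne_zero (A.comap (algebraMap ↥L1 Qb)) M h3O) ∧
        s35as_red ↥(A.comap (algebraMap ↥L1 Qb))
          ((ssm_fh_W (L := ↥L1) three_ne_zero M q hq3 hqM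
              (hs_phiE (L := ↥L1) three_ne_zero (N := M * q) x0) *
            s35as_pi (π := ((q : ℕ) : ↥(A.comap (algebraMap ↥L1 Qb))))
              (A.comap (algebraMap ↥L1 Qb)) (hs_E ↥L1 three_ne_zero (M * q)) ^ (-n2) :
            ↥(hs_E ↥L1 three_ne_zero (M * q))) : LaurentSeries ↥L1) =
          algebraMap _ _ k2 * ρ2 ^ m := by
    intro n2 h
    rw [m59h2_twft_br_W M hqM hq3 L1 x0] at h ⊢
    exact m59h2g_twft_br_hred A hA M hqM hq3 hm0 hOrd L1 h3O hπq hqm hzW hνW hδW hrepW n2 h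
  have hcomp := fun (n1 n2 : ℤ) h1 h2 =>
    m59h2_twft_cl_hcomp ↥L1 three_ne_zero (A.comap (algebraMap ↥L1 Qb)) h3O M q hq3 hqM hπq ζ hζ
      m hm0 _ hG0 hordG n1 n2 h1 h2 (hred1 n1 h1)
  obtain ⟨c, R, g', hc0, hR0, hg'0, hgd, hcr⟩ :=
    m59h2t_comp_lift_kappa three_ne_zero (A.comap (algebraMap ↥L1 Qb)) h3O hπq M q hq3 hqM m hm0
      (hs_phiE (L := ↥L1) three_ne_zero (N := M * q) x0) hG0 hcomp hred1 hred2
  refine ⟨c, R, g', hc0, hR0, hg'0, hgd, ?_, hcr⟩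
  intro v
  have hcE : algebraMap ↥L1 ↥(hs_E ↥L1 three_ne_zero (M * q)) c ≠ 0 := by
    rw [Ne, map_eq_zero]
    exact hc0
  have h1 := congrArg v.ord hgd
  rw [v.ord_mul (mul_ne_zero hcE (pow_ne_zero m hR0)) hg'0,
    v.ord_mul hcE (pow_ne_zero m hR0), hw_ord_algebraMap, zero_add, ← zpow_natCast,
    v.ord_zpow] at h1
  have h2 : v.ord g' =
      v.ord (hs_phiE (L := ↥L1) three_ne_zero (N := M * q) x0) - (m : ℤ) * v.ord R := by
    rw [h1]; ring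
  rw [h2]
  exact dvd_sub (hordG v) (dvd_mul_right _ _)

end Bridge

section NormalForm

variable (A : ValuationSubring Qb) {q : ℕ} [hq : Fact q.Prime] (hA : A.LiesOverPrime q)
  (M : ℕ) [NeZero M] [NeZero q] [NeZero (M * q)] (hqM : ¬ q ∣ M) (hq3 : ¬ 3 ∣ q)
  {m : ℕ} (hm0 : m ≠ 0) (hOrd : twfr_OrdOff A hA M hqM m) (hqm : ¬ q ∣ m)

include hA hm0 hOrd hqm in
/-- **(Z7)/(Z8) NORMAL FORM, HESSE COVER** (twin of `twft_normal_form`, `3 ∤ q`).  `z ∈ J₀(M q)[m]`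
fixed by `I_A` with `ν = 0 = δ` at `z` and at `W_q z`; `T` a finite set of `I_A`-fixed constants.
Then `z` has a representative `f` which descends to an unramified level `L1 ⊇ T ∪ {ζ_{3M}}`:
`f = c₀ · r₀^m · bc g1`, and on the Hesse cover `ι₃ g1 = k · R^m · g'` with all orders of `g'`
divisible by `m` and CONSTANT reductions of `g'` at both Gauss valuations. -/
theorem m59h2g_twft_normal_form (T : Finset Qb)
    (hT : ∀ t ∈ T, ∀ s ∈ A.inertiaSubgroupIn ℚ, s t = t)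
    {z : JZero (M * q)} (hz : m • z = 0)
    (hfix : ∀ σ ∈ A.inertiaSubgroupIn ℚ, σ • z = z)
    (hν : twfr_nu A M q hq.out hqM m z = 0)
    (hνW : twfr_nu A M q hq.out hqM m (s44w_WJ M q hq.out hqM z) = 0)
    (hδ : twfr_delta A M q m z = 0)
    (hδW : twfr_delta A M q m (s44w_WJ M q hq.out hqM z) = 0) :
    ∃ f : modularFunctionFieldBar (M * q), s44f_Rep (M * q) m z f ∧
      ∃ L1 : IntermediateField ℚ Qb, s35d_IsLevel A q L1 ∧ (↑T : Set Qb) ⊆ L1 ∧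
        (∃ ζ : ↥L1, IsPrimitiveRoot ζ (3 * M)) ∧
        ∃ (g1 : laurentBaseChange L1 (modularFunctionFieldFull (M * q))) (c₀ : Qb)
          (r₀ : modularFunctionFieldBar (M * q)), g1 ≠ 0 ∧ c₀ ≠ 0 ∧ r₀ ≠ 0 ∧
          f = algebraMap Qb (modularFunctionFieldBar (M * q)) c₀ * r₀ ^ m *
            dsc_bcHom L1 Qb (modularFunctionFieldFull (M * q)) g1 ∧
          (∀ w : Place L1 (laurentBaseChange L1 (modularFunctionFieldFull (M * q))),
            (m : ℤ) ∣ w.ord g1) ∧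
          ∀ [IsDiscreteValuationRing ↥(A.comap (algebraMap ↥L1 Qb))]
            [CharP (ResidueField ↥(A.comap (algebraMap ↥L1 Qb))) q]
            (h3O : IsUnit (3 : ↥(A.comap (algebraMap ↥L1 Qb))))
            (hπ : Irreducible ((q : ℕ) : ↥(A.comap (algebraMap ↥L1 Qb)))),
            ∃ (k : ↥L1) (R g' : ↥(hs_E ↥L1 three_ne_zero (M * q))), k ≠ 0 ∧ R ≠ 0 ∧ g' ≠ 0 ∧
              ss2_dp_iotaH ↥L1 three_ne_zero (M * q) g1 =
                algebraMap ↥L1 ↥(hs_E ↥L1 three_ne_zero (M * q)) k * R ^ m * g' ∧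
              (∀ v : Place ↥L1 ↥(hs_E ↥L1 three_ne_zero (M * q)), (m : ℤ) ∣ v.ord g') ∧
              s35h_ConstRed three_ne_zero (A.comap (algebraMap ↥L1 Qb)) h3O hπ M q hq3 hqM
                g' := by
  classical
  haveI : NeZero (3 * M) := ⟨Nat.mul_ne_zero (by norm_num) (NeZero.ne M)⟩
  obtain ⟨ζ', hζ'⟩ : ∃ ζ' : Qb, IsPrimitiveRoot ζ' (3 * M) :=
    HasEnoughRootsOfUnity.exists_primitiveRoot Qb (3 * M)
  have hq3M : ¬ q ∣ 3 * M := by
    intro h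
    rcases (Nat.Prime.dvd_mul hq.out).1 h with h | h
    · have : q = 3 := (Nat.prime_dvd_prime_iff_eq hq.out Nat.prime_three).1 h
      exact hq3 (this ▸ dvd_rfl)
    · exact hqM h
  have hζfix : ∀ s ∈ A.inertiaSubgroupIn ℚ, s ζ' = ζ' := fun s hs =>
    s35d_root_fixed A q hA hq3M hζ'.pow_eq_one hs
  have hT' : ∀ t ∈ insert ζ' T, ∀ s ∈ A.inertiaSubgroupIn ℚ, s t = t := by
    intro t ht s hs
    rcases Finset.mem_insert.1 ht with rfl | ht
    · exact hζfix s hs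
    · exact hT t ht s hs
  obtain ⟨f, hrep, L1, hlev, hT'L1, g1, c₀, r₀, hg1, hc₀, hr₀, hfeq, hordg1⟩ :=
    twfc_desc A hA (M * q) hm0 (insert ζ' T) hT' hz hfix
  have hTL1 : (↑T : Set Qb) ⊆ L1 := fun x hx => hT'L1 (by
    rw [Finset.coe_insert]; exact Set.mem_insert_of_mem _ hx)
  have hζL1 : ζ' ∈ L1 := hT'L1 (by rw [Finset.coe_insert]; exact Set.mem_insert _ _)
  have hζ1 : IsPrimitiveRoot (L1.val (⟨ζ', hζL1⟩ : L1)) (3 * M) := hζ'
  have hζ2 : IsPrimitiveRoot (⟨ζ', hζL1⟩ : L1) (3 * M) :=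
    IsPrimitiveRoot.of_map_of_injective hζ1 Subtype.val_injective
  refine ⟨f, hrep, L1, hlev, hTL1, ⟨_, hζ2⟩, g1, c₀, r₀, hg1, hc₀, hr₀, hfeq, hordg1, ?_⟩
  intro _ _ h3O hπ
  haveI : NumberField ↥L1 := { to_charZero := inferInstance, to_finiteDimensional := hlev.fd }
  -- the model over `L1`, in the `lg_F` vocabulary
  obtain ⟨x0, hx0⟩ : ∃ x0 : ↥(lg_F ↥L1 (M * q)),
      (x0 : LaurentSeries ↥L1) = (g1 : LaurentSeries ↥L1) :=
    ⟨⟨(g1 : LaurentSeries ↥L1), ss2_dp_mem_lgF ↥L1 (M * q) g1.2⟩, rfl⟩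
  have hbc : ssm_al_iotaF ↥L1 (M * q) x0 =
      dsc_bcHom ↥L1 Qb (modularFunctionFieldFull (M * q)) g1 := by
    apply Subtype.ext
    show ssm_al_iota ↥L1 (x0 : LaurentSeries ↥L1) = _
    rw [hx0]
    rfl
  have hι : ss2_dp_iotaH ↥L1 three_ne_zero (M * q) g1 =
      hs_phiE (L := ↥L1) three_ne_zero (N := M * q) x0 := by
    apply Subtype.ext
    show qExpand ↥L1 3 (g1 : LaurentSeries ↥L1) = qExpand ↥L1 3 (x0 : LaurentSeries ↥L1)
    rw [hx0]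
  have hrep0 : s44f_Rep (M * q) m z (ssm_al_iotaF ↥L1 (M * q) x0) := by
    rw [hbc]
    have e : f = algebraMap Qb (modularFunctionFieldBar (M * q)) c₀ *
        dsc_bcHom ↥L1 Qb (modularFunctionFieldFull (M * q)) g1 * r₀ ^ m := by
      rw [hfeq]; ring
    rw [e] at hrep
    exact (s44b_rep_pth (M * q) hc₀ hr₀).1 hrep
  rw [hι]
  exact m59h2g_twft_nf_at A hA M hqM hq3 hm0 hOrd L1 h3O hqm hπ ⟨ζ', hζL1⟩ hζ2 hz hν hνW hδ hδW
    hrep0

end NormalForm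

/-! ### the adapters -/

section Adapters

variable (A : ValuationSubring Qb) {q : ℕ} [hq : Fact q.Prime] (hA : A.LiesOverPrime q)
  (M : ℕ) [NeZero M] [NeZero q] [NeZero (M * q)] (hqM : ¬ q ∣ M) (hq3 : ¬ 3 ∣ q)
  {m : ℕ} (hm0 : m ≠ 0) (hOrd : twfr_OrdOff A hA M hqM m)

include hA hq3 hm0 hOrd

/-- `W_q z = ± z`, `ν z = 0`, `δ z = 0` ⟹ `ν (W_q z) = 0` and `δ (W_q z) = 0` (twin of
`twf_nu_delta_W`). -/
theorem m59h2g_twf_nu_delta_W {z : JZero (M * q)} (hz : m • z = 0)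
    (hW : s44w_WJ M q hq.out hqM z = z ∨ s44w_WJ M q hq.out hqM z = -z)
    (hν : twfr_nu A M q hq.out hqM m z = 0) (hδ : twfr_delta A M q m z = 0) :
    twfr_nu A M q hq.out hqM m (s44w_WJ M q hq.out hqM z) = 0 ∧
      twfr_delta A M q m (s44w_WJ M q hq.out hqM z) = 0 := by
  have hνn : twfr_nu A M q hq.out hqM m (-z) = 0 := by
    rw [twf_add_neg (twf_torsSub M q m) (twfr_nu A M q hq.out hqM m)
      (fun z hz z' hz' => twfr_nu_add A hA M hqM hm0 hz hz') z hz, hν, neg_zero]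
  have hδn : twfr_delta A M q m (-z) = 0 := by
    rw [twf_add_neg (twf_kerNu M q hqM A hA hm0) (twfr_delta A M q m)
      (fun z hz z' hz' =>
        m59h2g_delta_add_of_nu A hA M hqM hm0 hOrd hz.1 hz'.1 hz.2 hz'.2)
      z ⟨hz, hν⟩, hδ, neg_zero]
  rcases hW with h | h <;> rw [h]
  · exact ⟨hν, hδ⟩
  · exact ⟨hνn, hδn⟩

/-- **(Z8) adapter, sign `-1`** (twin of `twf_toricW_of_sep`): the separate-hypotheses form
`φ z + q W_q z = 0` gives GeoSeam's cell `twf_ToricW_stmt A M hqM m (-1)`. -/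
theorem m59h2g_twf_toricW_of_sep
    (hT : ∀ φ : GQ, A.IsFrobeniusAt φ q → ∀ z : JZero (M * q), m • z = 0 →
      (∀ s ∈ A.inertiaSubgroupIn ℚ, s • z = z) →
      twfr_nu A M q hq.out hqM m z = 0 →
      twfr_nu A M q hq.out hqM m (s44w_WJ M q hq.out hqM z) = 0 →
      twfr_delta A M q m z = 0 → twfr_delta A M q m (s44w_WJ M q hq.out hqM z) = 0 →
      φ • z + q • s44w_WJ M q hq.out hqM z = 0) :
    twf_ToricW_stmt A M hqM m (-1) := by
  intro φ hφ z hz hfix hW hν hδ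
  obtain ⟨hνW, hδW⟩ := m59h2g_twf_nu_delta_W A hA M hqM hq3 hm0 hOrd hz hW hν hδ
  have h := hT φ hφ z hz hfix hν hνW hδ hδW
  rw [eq_neg_of_add_eq_zero_left h, neg_one_mul, neg_smul, natCast_zsmul]

/-- **(Z8) adapter, `class_of_ff` shape** (twin of `twf_toricW_of_sep_comm`): the
separate-hypotheses form `W_q (φ z) + q z = 0` gives GeoSeam's cell
`twf_ToricW_stmt A M hqM m (-1)`. -/
theorem m59h2g_twf_toricW_of_sep_comm
    (hT : ∀ φ : GQ, A.IsFrobeniusAt φ q → ∀ z : JZero (M * q), m • z = 0 →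
      (∀ s ∈ A.inertiaSubgroupIn ℚ, s • z = z) →
      twfr_nu A M q hq.out hqM m z = 0 →
      twfr_nu A M q hq.out hqM m (s44w_WJ M q hq.out hqM z) = 0 →
      twfr_delta A M q m z = 0 → twfr_delta A M q m (s44w_WJ M q hq.out hqM z) = 0 →
      s44w_WJ M q hq.out hqM (φ • z) + q • z = 0) :
    twf_ToricW_stmt A M hqM m (-1) :=
  m59h2g_twf_toricW_of_sep A hA M hqM hq3 hm0 hOrd (fun φ hφ z hz hfix h1 h2 h3 h4 =>
    twf_w_swap M q hq.out hqM hm0 φ z hz q (hT φ hφ z hz hfix h1 h2 h3 h4))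

end Adapters

/-! ### the final glue at the level of classes -/

section Glue

variable (A : ValuationSubring Qb) {q : ℕ} [hq : Fact q.Prime] (hA : A.LiesOverPrime q)
  (M : ℕ) [NeZero M] [NeZero q] [NeZero (M * q)] (hqM : ¬ q ∣ M) (hq3 : ¬ 3 ∣ q)

include hA hq3 in
/-- **(Z8)-J at `(A, φ)`, Hesse cover** (twin of `twfj_toricW_at`): on `I_A`-fixed
`z ∈ J₀(M q)[m]` with `ν = 0 = δ` at `z` and at `W_q z`, `W_q (φ z) + q z = 0`. -/
theorem m59h2g_twfj_toricW_at (φ : GQ) (hφ : A.IsFrobeniusAt φ q) {m : ℕ} (hm0 : m ≠ 0)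
    (hOrd : twfr_OrdOff A hA M hqM m) (hqm : ¬ q ∣ m)
    (z : JZero (M * q)) (hz : m • z = 0) (hfix : ∀ s ∈ A.inertiaSubgroupIn ℚ, s • z = z)
    (hν : twfr_nu A M q hq.out hqM m z = 0)
    (hνW : twfr_nu A M q hq.out hqM m (s44w_WJ M q hq.out hqM z) = 0)
    (hδ : twfr_delta A M q m z = 0)
    (hδW : twfr_delta A M q m (s44w_WJ M q hq.out hqM z) = 0) :
    s44w_WJ M q hq.out hqM (φ • z) + q • z = 0 := by
  have hqq : q.Prime := hq.out
  obtain ⟨f, hrep, L1, hlev, -, ⟨ζ, hζ⟩, g1, c₀, r₀, hg1, hc₀, hr₀, hfeq, hordg1, hnf⟩ :=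
    m59h2g_twft_normal_form A hA M hqM hq3 hm0 hOrd hqm ∅ (by simp) hz hfix hν hνW hδ hδW
  haveI : NumberField ↥L1 := { to_charZero := inferInstance, to_finiteDimensional := hlev.fd }
  haveI hdvr : IsDiscreteValuationRing ↥(A.comap (algebraMap ↥L1 Qb)) := hlev.dvr
  have hmem := lg_natCast_mem_maximalIdeal A hA ↥L1
  haveI : CharP (ResidueField ↥(A.comap (algebraMap ↥L1 Qb))) q := ss_nfl_charP_residue hmem
  -- `3` is a unit at `A ∩ L1`
  have h3q : Nat.Coprime 3 q :=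
    (Nat.Prime.coprime_iff_not_dvd Nat.prime_three).2 hq3
  have h3O : IsUnit (3 : ↥(A.comap (algebraMap ↥L1 Qb))) := by
    have h := lg_isUnit_natCast hmem h3q
    rwa [Nat.cast_ofNat] at h
  obtain ⟨k, R, g', hk, hR, hg', hι, hordg', hcr⟩ := hnf h3O hlev.irr
  -- the restriction of `φ`
  set σ1 : ↥L1 ≃ₐ[ℚ] ↥L1 := hlev.res φ hφ.mem_decompositionSubgroup with hσ1
  have hσ1c : ∀ x : ↥L1, algebraMap ↥L1 Qb (σ1 x) = φ (algebraMap ↥L1 Qb x) := fun x =>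
    hlev.res_coe φ hφ.mem_decompositionSubgroup x
  have hmu : IsUnit ((m : ℕ) : ↥(A.comap (algebraMap ↥L1 Qb))) :=
    lg_isUnit_natCast hmem ((Nat.Prime.coprime_iff_not_dvd hqq).2 hqm).symm
  have hF := s35ti_frobAt_of_frobenius A φ hφ L1 σ1.toRingEquiv (fun x => hσ1c x)
  -- `ζ₃ ∈ L1`
  have hζ3 : IsPrimitiveRoot (ζ ^ M) 3 :=
    hζ.pow (Nat.mul_pos (by norm_num) (Nat.pos_of_ne_zero (NeZero.ne M))) (mul_comm 3 M)
  -- the SWAP toric identity over `(L1, φ|L1)`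
  have hTor : m59h2_twfw_ff_ToricWAt three_ne_zero (A.comap (algebraMap ↥L1 Qb)) h3O hlev.irr
      M q hq3 hqM σ1.toRingEquiv m :=
    m59h2_twfw_ff_leg_toricWAt ↥L1 three_ne_zero (A.comap (algebraMap ↥L1 Qb)) h3O M q hq3 hqM
      hlev.irr ζ hζ σ1.toRingEquiv hF m hmu
  obtain ⟨c, r, hr, hid⟩ := hTor g' hg' hordg' hcr
  exact m59h2_twfc_class_of_ff_W ↥L1 three_ne_zero M q hq3 hqM φ σ1 hσ1c hζ3 hm0 q hrep g1 hg1
    hordg1 hc₀ hr₀ hfeq hι hid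

include hA hq3 in
/-- **(Z8)-J at `3 ∤ q`**: GeoSeam's `twf_ToricW_stmt A M hqM m (-1)` (twin of `twfj_toricW`). -/
theorem m59h2g_twfj_toricW {m : ℕ} (hm0 : m ≠ 0) (hOrd : twfr_OrdOff A hA M hqM m)
    (hqm : ¬ q ∣ m) : twf_ToricW_stmt A M hqM m (-1) :=
  m59h2g_twf_toricW_of_sep_comm A hA M hqM hq3 hm0 hOrd (fun φ hφ z hz hfix h1 h2 h3 h4 =>
    m59h2g_twfj_toricW_at A hA M hqM hq3 φ hφ hm0 hOrd hqm z hz hfix h1 h2 h3 h4)

end Glue

end Fermat.Agent.M59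

end
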