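/-
M59 / box [C] Mazur at `q = 2`, HESSE PORT, GENERIC EXPONENT (helper29).  Prefix `m59h2g_`.

**`m59mz_Geo M hqM m` (`M59/Mazur/Seams.lean`) FROM (E2-ord) + (Z3)+(Z4), FOR `3 ∤ q`, EVERY
EXPONENT `m ≠ 0`, `q ∤ m`.**

Three of the four conjuncts of `m59mz_Geo M hqM m` — (Z6) `twf_ResHecke_stmt`, (Z8)
`twf_ToricW_stmt … (-1)` and the `ℤ`-linearity of `δ` on `J[m] ∩ ker ν` — follow from main's
cover-free Prop (E2-ord) `twfr_OrdOff A hA M hqM m` alone ((Z6) and the linearity for EVERY `q`;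
(Z8) through the Hesse cover, `3 ∤ q`: `m59h2g_twfj_toricW`).  Hence

  `m59h2g_geo_of_ord_comp` : (E2-ord) at every `A` over `q`  +  (Z3)+(Z4) `twf_CompCells` at every
                             `A` over `q`  ⟹  `m59mz_Geo M hqM m`.

At `(q, m) = (2, 3)` (cell [GEO-32r]) the open input is therefore exactly: (E2-ord) at exponent `3`
and the component cells with the recut weights.
-/
import Mathlib
import Fermat.Agent.TW.Easy.ResHecke.Main
import Fermat.Agent.M59.Mazur.Seams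
import Fermat.Agent.M59.Hesse2.Toric.HesGenZ8

set_option autoImplicit false
set_option linter.unusedSectionVars false
set_option linter.unusedVariables false
set_option linter.style.haveILetI false
set_option synthInstance.maxHeartbeats 400000
set_option maxHeartbeats 1000000

noncomputable section

namespace Fermat.Agent.M59

open ModularCurve AlgebraicCurve IntermediateField IsLocalRing
open Fermat.Agent.JT3 Fermat.Agent.SS Fermat.Agent.S35 Fermat.Agent.S24 Fermat.Agent.S28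
open Fermat.Agent.MZ Fermat.Agent.S44 Fermat.Agent.TW Fermat.Agent.S43

local notation "Qb" => AlgebraicClosure ℚ

section Res

variable (A : ValuationSubring Qb) {q : ℕ} [hq : Fact q.Prime] (hA : A.LiesOverPrime q)
  (M : ℕ) [NeZero M] [NeZero q] [NeZero (M * q)] (hqM : ¬ q ∣ M)
  {m : ℕ} (hm0 : m ≠ 0) (hOrd : twfr_OrdOff A hA M hqM m)

include hA hqM hm0 hOrd

/-- **(Z6) [RES-Hecke] from (E2-ord)**: `δ (T_ℓ z) = T̃_ℓ (δ z)` on `J₀(M q)[m] ∩ ker ν`. -/
theorem m59h2g_delta_hecke (ℓ : Nat.Primes) (hℓN : ¬ (ℓ : ℕ) ∣ M * q) {z : JZero (M * q)}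
    (hz : m • z = 0) (hν : twfr_nu A M q hq.out hqM m z = 0) :
    twfr_delta A M q m (heckeOperatorBar (M * q) ℓ z) =
      s44k2_TCp (s44e_kA A) M ℓ (twfr_delta A M q m z) :=
  twfq_delta_hecke_of A hA M hqM hm0 ℓ hℓN hz (twfr_fbar_spec' A hA M hqM hm0 hz)
    (twfr_dvd_all_of A hA M hqM hm0 hOrd hz hν)

/-- **(Z6) from (E2-ord)**: main's cell Prop `twf_ResHecke_stmt A M hqM m`. -/
theorem m59h2g_twf_resHecke : twf_ResHecke_stmt A M hqM m :=
  fun ℓ hℓN _ z hz hν => m59h2g_delta_hecke A hA M hqM hm0 hOrd ℓ hℓN hz hν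

/-- **`δ` commutes with integer multiples on `J₀(M q)[m] ∩ ker ν`, from (E2-ord).** -/
theorem m59h2g_delta_zsmul {z : JZero (M * q)} (hz : m • z = 0)
    (hν : twfr_nu A M q hq.out hqM m z = 0) (a : ℤ) :
    twfr_nu A M q hq.out hqM m (a • z) = 0 ∧
      twfr_delta A M q m (a • z) = a • twfr_delta A M q m z := by
  have hzero : twfr_nu A M q hq.out hqM m (0 : JZero (M * q)) = 0 ∧
      twfr_delta A M q m (0 : JZero (M * q)) = 0 := by
    have h0 : m • (0 : JZero (M * q)) = 0 := smul_zero _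
    have hν0 : twfr_nu A M q hq.out hqM m (0 : JZero (M * q)) = 0 := by
      have h := twfr_nu_add A hA M hqM hm0 h0 h0
      rw [add_zero] at h
      exact left_eq_add.1 h
    refine ⟨hν0, ?_⟩
    have h := m59h2g_delta_add_of_nu A hA M hqM hm0 hOrd h0 h0 hν0 hν0
    rw [add_zero] at h
    exact left_eq_add.1 h
  have hnat : ∀ n : ℕ, twfr_nu A M q hq.out hqM m (n • z) = 0 ∧
      twfr_delta A M q m (n • z) = n • twfr_delta A M q m z := by
    intro n
    induction n with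
    | zero => rw [zero_nsmul, zero_nsmul]; exact hzero
    | succ n ih =>
      have hnz : m • (n • z) = 0 := by rw [smul_comm, hz, smul_zero]
      refine ⟨?_, ?_⟩
      · rw [succ_nsmul, twfr_nu_add A hA M hqM hm0 hnz hz, ih.1, hν, add_zero]
      · rw [succ_nsmul, succ_nsmul,
          m59h2g_delta_add_of_nu A hA M hqM hm0 hOrd hnz hz ih.1 hν, ih.2]
  have hneg : ∀ w : JZero (M * q), m • w = 0 → twfr_nu A M q hq.out hqM m w = 0 →
      twfr_nu A M q hq.out hqM m (-w) = 0 ∧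
        twfr_delta A M q m (-w) = -twfr_delta A M q m w := by
    intro w hw hνw
    have hnw : m • (-w) = 0 := by rw [neg_nsmul, hw, _root_.neg_zero]
    have h1 := twfr_nu_add A hA M hqM hm0 hw hnw
    rw [add_neg_cancel, hzero.1, hνw, zero_add] at h1
    refine ⟨h1.symm, ?_⟩
    have h2 := m59h2g_delta_add_of_nu A hA M hqM hm0 hOrd hw hnw hνw h1.symm
    rw [add_neg_cancel, hzero.2] at h2
    exact (neg_eq_of_add_eq_zero_right h2.symm).symm
  obtain ⟨n, rfl | rfl⟩ := a.eq_nat_or_neg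
  · rw [natCast_zsmul, natCast_zsmul]
    exact hnat n
  · have hnz : m • (n • z) = 0 := by rw [smul_comm, hz, smul_zero]
    rw [neg_smul, neg_smul, natCast_zsmul, natCast_zsmul]
    obtain ⟨h1, h2⟩ := hneg (n • z) hnz (hnat n).1
    exact ⟨h1, by rw [h2, (hnat n).2]⟩

end Res

section Geo

variable (M : ℕ) {q : ℕ} [NeZero M] [NeZero q] [NeZero (M * q)] [hq : Fact q.Prime]
  (hqM : ¬ q ∣ M)

/-- **`m59mz_Geo M hqM m` from (E2-ord) and the component cells (Z3)+(Z4)**, for a level prime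
`q` with `3 ∤ q` and every exponent `m ≠ 0`, `q ∤ m`. -/
theorem m59h2g_geo_of_ord_comp (hq3 : ¬ 3 ∣ q) {m : ℕ} (hm0 : m ≠ 0) (hqm : ¬ q ∣ m)
    (hOrd : ∀ (A : ValuationSubring Qb) (hA : A.LiesOverPrime q), twfr_OrdOff A hA M hqM m)
    (hComp : ∀ A : ValuationSubring Qb, A.LiesOverPrime q →
      ∃ (S : Finset ℕ) (k : s44e_Sg A M q hq.out hqM → ZMod m)
        (B : Nat.Primes → (s44e_Sg A M q hq.out hqM → ZMod m) →+
          (s44e_Sg A M q hq.out hqM → ZMod m)), twf_CompCells A M hqM m S k B) :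
    m59mz_Geo M hqM m := by
  intro A hA
  refine ⟨hComp A hA, m59h2g_twf_resHecke A hA M hqM hm0 (hOrd A hA),
    ⟨-1, Or.inr rfl, m59h2g_twfj_toricW A hA M hqM hq3 hm0 (hOrd A hA) hqm⟩, ?_⟩
  intro z hz hν n
  exact (m59h2g_delta_zsmul A hA M hqM hm0 (hOrd A hA) hz hν n).2

end Geo

end Fermat.Agent.M59

end
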