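/-
M59 / box [C] Mazur at `q = 2`, HESSE PORT, cluster D-TORIC (helper29).  Prefix `m59h2_`.

Twin of `twfw_nf_leg` (`TW/Easy/ToricW/NodeFrobW.lean`): THE FROBENIUS CONGRUENCE AT THE NODES FOR
THE SWAP `τ = W ∘ Φ`, `Q = q`, on the HESSE tower (coordinate `x = μ - 1`), level prime `q` with
`3 ∤ q`.  Binders of main's `s35nf_hes` VERBATIM; the abstract tower `twfw_nf_tower` is main's.
-/
import Mathlib
import Fermat.Agent.S35.NodeFrob.Hes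
import Fermat.Agent.TW.Easy.ToricW.NodeFrobW

set_option autoImplicit false
set_option linter.unusedSectionVars false
set_option linter.unusedVariables false
set_option linter.style.haveILetI false

noncomputable section

open ModularCurve IntermediateField IsLocalRing Polynomial
open Fermat.Agent.JT3 Fermat.Agent.SS Fermat.Agent.S35 Fermat.Agent.TW

namespace Fermat.Agent.M59

section Hesse

variable {L : Type*} [Field L] [CharZero L] [Algebra L (AlgebraicClosure ℚ)] (h3 : (3 : L) ≠ 0)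
  (O : ValuationSubring L) [IsDiscreteValuationRing O] (h3O : IsUnit (3 : O)) {π : O}
  (hπ : Irreducible π)
variable (N' q : ℕ) [NeZero N'] [NeZero q] [hq : Fact q.Prime] [CharP (ResidueField O) q]
  (hq3 : ¬ 3 ∣ q) (hqN' : ¬ q ∣ N')

set_option synthInstance.maxHeartbeats 200000 in
set_option maxHeartbeats 1600000 in
/-- **[FROB-N] for the swap, Hesse tower** (binders of `s35nf_hes`): at every maximal crossing
point `𝔫 ⊇ P1 + P2` of `B_x`:  `W (σ_E b) ≡ b^q mod 𝔫` for all `b ∈ B_x`, and `(W σ_E) 𝔫 = 𝔫`. -/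
theorem m59h2_twfw_nf_leg
    (hprime : Prime (algebraMap ↥O
      (fc_chart ↥O ({hs_muE h3 N' - 1} : Set ↥(hs_E L h3 N'))) π))
    (hic : IsIntegrallyClosed (fc_chart ↥O ({hs_muE h3 N' - 1} : Set ↥(hs_E L h3 N')) ⧸
      (Ideal.span {algebraMap ↥O (fc_chart ↥O ({hs_muE h3 N' - 1} : Set ↥(hs_E L h3 N'))) π} :
        Ideal (fc_chart ↥O ({hs_muE h3 N' - 1} : Set ↥(hs_E L h3 N'))))))
    (F : ssm_i1g_Facts ↥O q (hs_muE h3 (N' * q) - 1)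
      (ssm_fh_W h3 N' q hq3 hqN' (hs_muE h3 (N' * q)) - 1)
      (hs_muE h3 (N' * q) ^ 2 + hs_muE h3 (N' * q) + 1)
      (ssm_fh_W h3 N' q hq3 hqN' (hs_muE h3 (N' * q)) ^ 2 +
        ssm_fh_W h3 N' q hq3 hqN' (hs_muE h3 (N' * q)) + 1)
      (ssm_fh_V1 h3 O h3O hπ N' q) (ssm_fh_V2 h3 O h3O hπ N' q hq3 hqN'))
    (σ : L ≃+* L) (hσ : s35nf_FrobAt O σ q)
    (𝔫 : Ideal (fc_chart ↥O ({hs_muE h3 (N' * q) - 1} : Set ↥(hs_E L h3 (N' * q)))))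
    (h𝔫 : 𝔫.IsMaximal)
    (hP1 : ssm_tp_P (fc_chart ↥O ({hs_muE h3 (N' * q) - 1} : Set ↥(hs_E L h3 (N' * q))))
      (ssm_fh_V1 h3 O h3O hπ N' q) ≤ 𝔫)
    (hP2 : ssm_tp_P (fc_chart ↥O ({hs_muE h3 (N' * q) - 1} : Set ↥(hs_E L h3 (N' * q))))
      (ssm_fh_V2 h3 O h3O hπ N' q hq3 hqN') ≤ 𝔫) :
    (∀ b : fc_chart ↥O ({hs_muE h3 (N' * q) - 1} : Set ↥(hs_E L h3 (N' * q))),
      ∃ m ∈ 𝔫, ((m : fc_chart ↥O ({hs_muE h3 (N' * q) - 1} : Set ↥(hs_E L h3 (N' * q)))) :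
          ↥(hs_E L h3 (N' * q))) =
        ssm_fh_W h3 N' q hq3 hqN' (ssm_sgh_aut h3 (N' * q) σ (b : ↥(hs_E L h3 (N' * q)))) -
          (b : ↥(hs_E L h3 (N' * q))) ^ q) ∧
    (∀ z : fc_chart ↥O ({hs_muE h3 (N' * q) - 1} : Set ↥(hs_E L h3 (N' * q))),
      (∃ m ∈ 𝔫, ((m : fc_chart ↥O ({hs_muE h3 (N' * q) - 1} : Set ↥(hs_E L h3 (N' * q)))) :
          ↥(hs_E L h3 (N' * q))) =
        ssm_fh_W h3 N' q hq3 hqN' (ssm_sgh_aut h3 (N' * q) σ (z : ↥(hs_E L h3 (N' * q))))) ↔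
        z ∈ 𝔫) := by
  haveI := ssm_glh_finite h3 N'
  haveI : FiniteDimensional
      L⟮IntermediateField.inclusion (ssm_alh_E_le L h3 (ssm_fh_hF9 h3) N' q) (hs_muE h3 N' - 1)⟯
      ↥(hs_E L h3 (N' * q)) :=
    ssm_glh_finite h3 (N' * q)
  have hWO : ∀ a : ↥O, ssm_fh_W h3 N' q hq3 hqN' (algebraMap ↥O ↥(hs_E L h3 (N' * q)) a) =
      algebraMap ↥O ↥(hs_E L h3 (N' * q)) a :=
    fun a => (ssm_alh_WE L h3 (ssm_fh_hF9 h3) N' q hq.out hq3 hqN').commutes (a : L)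
  have hWx : ssm_fh_W h3 N' q hq3 hqN' (hs_muE h3 (N' * q) - 1) =
      ssm_fh_W h3 N' q hq3 hqN' (hs_muE h3 (N' * q)) - 1 := by
    rw [map_sub, map_one]
  obtain ⟨hWB1, -, -⟩ := ssm_i1g_W_charts (ssm_fh_W h3 N' q hq3 hqN') hWO hWx F
  exact twfw_nf_tower O hπ q (hs_E L h3 N') (hs_E L h3 (N' * q))
    (ssm_alh_E_le L h3 (ssm_fh_hF9 h3) N' q) (hsa_E_le_quotField h3 O (N' * q) h3O)
    (ssm_fh_W h3 N' q hq3 hqN') (ssm_alh_WE_WE L h3 (ssm_fh_hF9 h3) N' q hq.out hq3 hqN')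
    (fun z => ssm_alh_coe_WE_of_mem L h3 (ssm_fh_hF9 h3) N' q hq.out hq3 hqN' z.2 _)
    (ssm_alh_relfinrank_E L h3 (ssm_fh_hF9 h3) N' q hq.out hq3 hqN')
    (hm_mu O h3O - 1) (ssm_glh_frobFixed O h3O q) (-1) (ssm_gh_not_dvd_neg_one q)
    (ssm_glh_coeff O h3O) (hs_muE h3 N' - 1) (ssm_glh_coe_x h3 O h3O N') hprime hic hWB1 σ hσ
    (ssm_sgh_aut h3 N' σ : ↥(hs_E L h3 N') →+* ↥(hs_E L h3 N')) (fun _ => rfl)
    (ssm_sgh_aut h3 (N' * q) σ : ↥(hs_E L h3 (N' * q)) →+* ↥(hs_E L h3 (N' * q))) (fun _ => rfl)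
    (ssm_sgm_aut_x h3 N' σ) 𝔫 h𝔫 hP1 hP2

end Hesse

end Fermat.Agent.M59

end
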