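/-
M59 / box [C] Mazur at `q = 2`, HESSE PORT, cluster D-TORIC (helper29).  Prefix `m59h2_`.

Twin of `TW/Easy/ToricW/LegW.lean` (the tainted declarations only): THE HESSE INSTANCE OF THE SWAP
`τ_W = W ∘ Φ`, `Q = q`, coordinate `x = μ - 1`, level prime `q` with `3 ∤ q`.  The abstract swap
lemmas `twfw_lg_swap_*`, `twfw_lg_P_swap`, `twfw_lg_mem_iff_of`, `twfw_lg_tau0_dvd` are main's.

`Φ = ssm_sgh_aut h3 (N' q) σ`, `W = ssm_fh_W h3 N' q hq3 hqN'`, `τ_W := m59h2_twfw_lg_tau`.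
-/
import Mathlib
import Fermat.Agent.S35.TauInst.Hes
import Fermat.Agent.S35.ToricInst.NodeOf
import Fermat.Agent.TW.Easy.ToricW.LegW
import Fermat.Agent.M59.Hesse2.Toric.HesNodeFrobW

set_option autoImplicit false
set_option linter.unusedSectionVars false
set_option linter.unusedVariables false
set_option linter.style.haveILetI false

noncomputable section

open ModularCurve IntermediateField IsLocalRing Polynomial
open Fermat.Agent.JT3 Fermat.Agent.SS Fermat.Agent.S35 Fermat.Agent.TW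

namespace Fermat.Agent.M59

section Tower

variable {L : Type*} [Field L] [CharZero L] [Algebra L (AlgebraicClosure ℚ)] (h3 : (3 : L) ≠ 0)
  (O : ValuationSubring L) [IsDiscreteValuationRing O] (h3O : IsUnit (3 : O)) {π : O}
  (hπ : Irreducible π)
variable (N' q : ℕ) [NeZero N'] [NeZero q] [hq : Fact q.Prime] [CharP (ResidueField O) q]
  (hq3 : ¬ 3 ∣ q) (hqN' : ¬ q ∣ N')
variable (σ : L ≃+* L) (hσ : s35nf_FrobAt O σ q)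

/-- `τ_W = W ∘ Φ` on `hs_E L h3 (N' q)`. -/
def m59h2_twfw_lg_tau : ↥(hs_E L h3 (N' * q)) ≃+* ↥(hs_E L h3 (N' * q)) :=
  (ssm_sgh_aut h3 (N' * q) σ).trans (ssm_fh_W h3 N' q hq3 hqN')

theorem m59h2_twfw_lg_tau_apply (z : ↥(hs_E L h3 (N' * q))) :
    m59h2_twfw_lg_tau h3 N' q hq3 hqN' σ z =
      ssm_fh_W h3 N' q hq3 hqN' (ssm_sgh_aut h3 (N' * q) σ z) :=
  RingEquiv.trans_apply (ssm_sgh_aut h3 (N' * q) σ) (ssm_fh_W h3 N' q hq3 hqN') z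

/-- `W` fixes the constants of `O`. -/
theorem m59h2_twfw_lg_W_algebraMap (a : ↥O) :
    ssm_fh_W h3 N' q hq3 hqN' (algebraMap ↥O ↥(hs_E L h3 (N' * q)) a) =
      algebraMap ↥O ↥(hs_E L h3 (N' * q)) a :=
  (ssm_alh_WE L h3 (ssm_fh_hF9 h3) N' q hq.out hq3 hqN').commutes (a : L)

/-- `hτbase`: `τ_W` is semilinear over `τ0 = s35nf_base hσ`. -/
theorem m59h2_twfw_lg_base (a : ↥O) :
    m59h2_twfw_lg_tau h3 N' q hq3 hqN' σ (algebraMap ↥O ↥(hs_E L h3 (N' * q)) a) =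
      algebraMap ↥O ↥(hs_E L h3 (N' * q)) (s35nf_base hσ a) := by
  rw [m59h2_twfw_lg_tau_apply]
  have h1 : ssm_sgh_aut h3 (N' * q) σ (algebraMap ↥O ↥(hs_E L h3 (N' * q)) a) =
      algebraMap ↥O ↥(hs_E L h3 (N' * q)) (s35nf_base hσ a) :=
    ssm_sgh_aut_algebraMap h3 (N' * q) σ (a : L)
  rw [h1]
  exact m59h2_twfw_lg_W_algebraMap h3 O N' q hq3 hqN' _

/-- `τ_W` is semilinear over `σ` on `L`. -/
theorem m59h2_twfw_lg_baseL (a : L) :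
    m59h2_twfw_lg_tau h3 N' q hq3 hqN' σ (algebraMap L ↥(hs_E L h3 (N' * q)) a) =
      algebraMap L ↥(hs_E L h3 (N' * q)) (σ a) := by
  rw [m59h2_twfw_lg_tau_apply, ssm_sgh_aut_algebraMap]
  exact (ssm_alh_WE L h3 (ssm_fh_hF9 h3) N' q hq.out hq3 hqN').commutes (σ a)

/-! #### the chart `B_x` -/

section Charts

variable (F : ssm_i1g_Facts ↥O q (hs_muE h3 (N' * q) - 1)
      (ssm_fh_W h3 N' q hq3 hqN' (hs_muE h3 (N' * q)) - 1)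
      (hs_muE h3 (N' * q) ^ 2 + hs_muE h3 (N' * q) + 1)
      (ssm_fh_W h3 N' q hq3 hqN' (hs_muE h3 (N' * q)) ^ 2 +
        ssm_fh_W h3 N' q hq3 hqN' (hs_muE h3 (N' * q)) + 1)
      (ssm_fh_V1 h3 O h3O hπ N' q) (ssm_fh_V2 h3 O h3O hπ N' q hq3 hqN'))

set_option synthInstance.maxHeartbeats 200000 in
include F hσ in
/-- `τ_W` preserves the chart `B_x`. -/
theorem m59h2_twfw_lg_chart1 (z : ↥(hs_E L h3 (N' * q))) :
    m59h2_twfw_lg_tau h3 N' q hq3 hqN' σ z ∈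
        fc_chart ↥O ({hs_muE h3 (N' * q) - 1} : Set ↥(hs_E L h3 (N' * q))) ↔
      z ∈ fc_chart ↥O ({hs_muE h3 (N' * q) - 1} : Set ↥(hs_E L h3 (N' * q))) := by
  have hWx : ssm_fh_W h3 N' q hq3 hqN' (hs_muE h3 (N' * q) - 1) =
      ssm_fh_W h3 N' q hq3 hqN' (hs_muE h3 (N' * q)) - 1 := by
    rw [map_sub, map_one]
  obtain ⟨hWB, -, -⟩ := ssm_i1g_W_charts (ssm_fh_W h3 N' q hq3 hqN')
    (m59h2_twfw_lg_W_algebraMap h3 O N' q hq3 hqN') hWx F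
  exact twfw_lg_mem_iff_of (ssm_sgh_aut h3 (N' * q) σ) (ssm_fh_W h3 N' q hq3 hqN') _
    (s35ti_chart_iff (ssm_sgh_aut h3 (N' * q) σ) (s35nf_base hσ)
      (fun a => ssm_sgh_aut_algebraMap h3 (N' * q) σ (a : L)) _ (fun s hs => by
        rw [Set.mem_singleton_iff.1 hs]; exact ssm_sgm_aut_x h3 (N' * q) σ))
    hWB (ssm_alh_WE_WE L h3 (ssm_fh_hF9 h3) N' q hq.out hq3 hqN') z

end Charts

/-! #### the two valuation rings are swapped -/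

include hσ in
/-- `τ_W z ∈ 𝔪(V₁) ↔ z ∈ 𝔪(V₂)`. -/
theorem m59h2_twfw_lg_V12m (z : ↥(hs_E L h3 (N' * q))) :
    m59h2_twfw_lg_tau h3 N' q hq3 hqN' σ z ∈ (ssm_fh_V1 h3 O h3O hπ N' q).nonunits ↔
      z ∈ (ssm_fh_V2 h3 O h3O hπ N' q hq3 hqN').nonunits :=
  twfw_lg_swap_nonunits12 (ssm_sgh_aut h3 (N' * q) σ) (ssm_fh_W h3 N' q hq3 hqN')
    (ssm_fh_V1 h3 O h3O hπ N' q)
    (fun z => ssm_sgw_comm_hes L h3 (ssm_fh_hF9 h3) N' q hq.out hq3 hqN' σ z)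
    (s35ti_gauss_nonunits π hπ.ne_zero hπ.maximalIdeal_eq _ _ hσ (ssm_sgh_aut h3 (N' * q) σ)
      (fun _ => rfl)) z

include hσ in
/-- `τ_W z ∈ 𝔪(V₂) ↔ z ∈ 𝔪(V₁)`. -/
theorem m59h2_twfw_lg_V21m (z : ↥(hs_E L h3 (N' * q))) :
    m59h2_twfw_lg_tau h3 N' q hq3 hqN' σ z ∈ (ssm_fh_V2 h3 O h3O hπ N' q hq3 hqN').nonunits ↔
      z ∈ (ssm_fh_V1 h3 O h3O hπ N' q).nonunits :=
  twfw_lg_swap_nonunits21 (ssm_sgh_aut h3 (N' * q) σ) (ssm_fh_W h3 N' q hq3 hqN')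
    (ssm_fh_V1 h3 O h3O hπ N' q) (ssm_alh_WE_WE L h3 (ssm_fh_hF9 h3) N' q hq.out hq3 hqN')
    (s35ti_gauss_nonunits π hπ.ne_zero hπ.maximalIdeal_eq _ _ hσ (ssm_sgh_aut h3 (N' * q) σ)
      (fun _ => rfl)) z

/-! #### the nodes -/

section ChartsP

variable (F : ssm_i1g_Facts ↥O q (hs_muE h3 (N' * q) - 1)
      (ssm_fh_W h3 N' q hq3 hqN' (hs_muE h3 (N' * q)) - 1)
      (hs_muE h3 (N' * q) ^ 2 + hs_muE h3 (N' * q) + 1)
      (ssm_fh_W h3 N' q hq3 hqN' (hs_muE h3 (N' * q)) ^ 2 +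
        ssm_fh_W h3 N' q hq3 hqN' (hs_muE h3 (N' * q)) + 1)
      (ssm_fh_V1 h3 O h3O hπ N' q) (ssm_fh_V2 h3 O h3O hπ N' q hq3 hqN'))

set_option synthInstance.maxHeartbeats 200000 in
set_option maxHeartbeats 1600000 in
include F hσ in
/-- **the nodes**: at every maximal crossing point `𝔫 ⊇ P₁ + P₂` of the chart `B_x`,
`τ_B⁻¹ 𝔫 = 𝔫` and `τ_B b ≡ b^q mod 𝔫` (`τ_B = s35ti_restrict τ_W B_x`). -/
theorem m59h2_twfw_lg_node
    (hprime : Prime (algebraMap ↥O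
      (fc_chart ↥O ({hs_muE h3 N' - 1} : Set ↥(hs_E L h3 N'))) π))
    (hic : IsIntegrallyClosed (fc_chart ↥O ({hs_muE h3 N' - 1} : Set ↥(hs_E L h3 N')) ⧸
      (Ideal.span {algebraMap ↥O (fc_chart ↥O ({hs_muE h3 N' - 1} : Set ↥(hs_E L h3 N'))) π} :
        Ideal (fc_chart ↥O ({hs_muE h3 N' - 1} : Set ↥(hs_E L h3 N'))))))
    (𝔫 : Ideal (fc_chart ↥O ({hs_muE h3 (N' * q) - 1} : Set ↥(hs_E L h3 (N' * q)))))
    (h𝔫 : 𝔫.IsMaximal)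
    (hP1 : ssm_tp_P (fc_chart ↥O ({hs_muE h3 (N' * q) - 1} : Set ↥(hs_E L h3 (N' * q))))
      (ssm_fh_V1 h3 O h3O hπ N' q) ≤ 𝔫)
    (hP2 : ssm_tp_P (fc_chart ↥O ({hs_muE h3 (N' * q) - 1} : Set ↥(hs_E L h3 (N' * q))))
      (ssm_fh_V2 h3 O h3O hπ N' q hq3 hqN') ≤ 𝔫) :
    𝔫.comap (s35ti_restrict (m59h2_twfw_lg_tau h3 N' q hq3 hqN' σ) _
        (m59h2_twfw_lg_chart1 h3 O h3O hπ N' q hq3 hqN' σ hσ F) :
        fc_chart ↥O ({hs_muE h3 (N' * q) - 1} : Set ↥(hs_E L h3 (N' * q))) →+* _) = 𝔫 ∧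
    ∀ b : fc_chart ↥O ({hs_muE h3 (N' * q) - 1} : Set ↥(hs_E L h3 (N' * q))),
      s35ti_restrict (m59h2_twfw_lg_tau h3 N' q hq3 hqN' σ) _
        (m59h2_twfw_lg_chart1 h3 O h3O hπ N' q hq3 hqN' σ hσ F) b - b ^ q ∈ 𝔫 := by
  obtain ⟨hA, hI⟩ := m59h2_twfw_nf_leg h3 O h3O hπ N' q hq3 hqN' hprime hic F σ hσ 𝔫 h𝔫 hP1 hP2
  refine ⟨?_, fun b => ?_⟩
  · ext z
    rw [Ideal.mem_comap, ← hI z, RingEquiv.coe_toRingHom]
    constructor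
    · intro hz
      exact ⟨_, hz, m59h2_twfw_lg_tau_apply h3 N' q hq3 hqN' σ _⟩
    · rintro ⟨m, hm, hmz⟩
      have : s35ti_restrict (m59h2_twfw_lg_tau h3 N' q hq3 hqN' σ) _
          (m59h2_twfw_lg_chart1 h3 O h3O hπ N' q hq3 hqN' σ hσ F) z = m :=
        Subtype.ext ((m59h2_twfw_lg_tau_apply h3 N' q hq3 hqN' σ _).trans hmz.symm)
      rw [this]
      exact hm
  · obtain ⟨m, hm, hmb⟩ := hA b
    have : s35ti_restrict (m59h2_twfw_lg_tau h3 N' q hq3 hqN' σ) _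
        (m59h2_twfw_lg_chart1 h3 O h3O hπ N' q hq3 hqN' σ hσ F) b - b ^ q = m := by
      apply Subtype.ext
      rw [hmb]
      show m59h2_twfw_lg_tau h3 N' q hq3 hqN' σ (b : ↥(hs_E L h3 (N' * q))) - _ = _
      rw [m59h2_twfw_lg_tau_apply]
      rfl
    rw [this]
    exact hm

set_option synthInstance.maxHeartbeats 200000 in
set_option maxHeartbeats 1600000 in
include F hσ in
/-- **the Frobenius clause of `s35l_NodeAt` for the swap**: `s35l_FrobAt τ_W q 𝔫` at every maximal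
crossing point `𝔫 ⊇ P₁ + P₂` of `B_x`. -/
theorem m59h2_twfw_lg_frobAt
    (hprime : Prime (algebraMap ↥O
      (fc_chart ↥O ({hs_muE h3 N' - 1} : Set ↥(hs_E L h3 N'))) π))
    (hic : IsIntegrallyClosed (fc_chart ↥O ({hs_muE h3 N' - 1} : Set ↥(hs_E L h3 N')) ⧸
      (Ideal.span {algebraMap ↥O (fc_chart ↥O ({hs_muE h3 N' - 1} : Set ↥(hs_E L h3 N'))) π} :
        Ideal (fc_chart ↥O ({hs_muE h3 N' - 1} : Set ↥(hs_E L h3 N'))))))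
    (𝔫 : Ideal (fc_chart ↥O ({hs_muE h3 (N' * q) - 1} : Set ↥(hs_E L h3 (N' * q)))))
    (h𝔫 : 𝔫.IsMaximal)
    (hP1 : ssm_tp_P (fc_chart ↥O ({hs_muE h3 (N' * q) - 1} : Set ↥(hs_E L h3 (N' * q))))
      (ssm_fh_V1 h3 O h3O hπ N' q) ≤ 𝔫)
    (hP2 : ssm_tp_P (fc_chart ↥O ({hs_muE h3 (N' * q) - 1} : Set ↥(hs_E L h3 (N' * q))))
      (ssm_fh_V2 h3 O h3O hπ N' q hq3 hqN') ≤ 𝔫) :
    s35l_FrobAt (m59h2_twfw_lg_tau h3 N' q hq3 hqN' σ) q 𝔫 :=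
  s35ti_frobAt_of_restrict (m59h2_twfw_lg_tau h3 N' q hq3 hqN' σ) hq.out.ne_zero 𝔫
    (m59h2_twfw_lg_chart1 h3 O h3O hπ N' q hq3 hqN' σ hσ F)
    (m59h2_twfw_lg_node h3 O h3O hπ N' q hq3 hqN' σ hσ F hprime hic 𝔫 h𝔫 hP1 hP2).2

end ChartsP

end Tower

end Fermat.Agent.M59

end
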