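/-
M59 / box [C] Mazur at `q = 2`, HESSE PORT, cluster D-TORIC (helper29).  Prefix `m59h2_`.

Twin of `TW/Easy/ToricW/LegWLoc.lean`: THE CLOSED POINTS OF THE HESSE MODEL FOR THE SWAP
`τ_W = W ∘ Φ`, `Q = q` (model: main's `S35/FinalHes/Loc.lean`, `τ = φ_E²`, `Q = q²`).

`L ⊆ Q̄` a number field containing a primitive `3N'`-th root of unity, `O` a discrete valuation ring
of `L` with uniformiser `q`, `3 ∤ q`, `q ∤ N'`, `φ1` a Frobenius lift at `O`: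

* `m59h2_twfw_lg_nodeAt` : every maximal crossing point `𝔫 ⊇ P1 + P2` of the chart `B_x` is a
                           REGULAR NODE FIXED BY `τ_W` with `τ_W b ≡ b^q mod 𝔫`;
* `m59h2_twfw_lg_pts1`   : every closed point of `B_x` is smooth or such a node.
-/
import Mathlib
import Fermat.Agent.S35.FinalHes.Loc
import Fermat.Agent.M59.Hesse2.Toric.HesW

set_option autoImplicit false
set_option linter.style.haveILetI false
set_option linter.unusedSectionVars false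
set_option linter.unusedVariables false

noncomputable section

namespace Fermat.Agent.M59

open Fermat.Agent.SS Fermat.Agent.JT3 Fermat.Agent.S35 Fermat.Agent.TW IntermediateField
  ModularCurve IsLocalRing AlgebraicCurve Polynomial

section NF

variable (L : Type) [Field L] [NumberField L] [Algebra L (AlgebraicClosure ℚ)]
  (h3 : (3 : L) ≠ 0) (O : ValuationSubring L) [IsDiscreteValuationRing O]
  (h3O : IsUnit (3 : O))
variable (N' q : ℕ) [NeZero N'] [NeZero q] [hq : Fact q.Prime] [CharP (ResidueField O) q]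
  (hq3 : ¬ 3 ∣ q) (hqN' : ¬ q ∣ N') (hπ : Irreducible ((q : ℕ) : ↥O))
  (ζ : L) (hζ : IsPrimitiveRoot ζ (3 * N'))
  (φ1 : L ≃+* L) (hφ1 : s35nf_FrobAt O φ1 q)

include hζ hφ1 in
set_option synthInstance.maxHeartbeats 400000 in
set_option maxHeartbeats 3200000 in
/-- **the crossing points of `B_x` are regular nodes fixed by the swap `τ_W`, with
`τ_W b ≡ b^q`.** -/
theorem m59h2_twfw_lg_nodeAt
    (𝔫 : Ideal (fc_chart ↥O ({hs_muE h3 (N' * q) - 1} : Set ↥(hs_E L h3 (N' * q)))))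
    (h𝔫 : 𝔫.IsMaximal)
    (hP1 : ssm_tp_P (fc_chart ↥O ({hs_muE h3 (N' * q) - 1} : Set ↥(hs_E L h3 (N' * q))))
      (ssm_fh_V1 h3 O h3O hπ N' q) ≤ 𝔫)
    (hP2 : ssm_tp_P (fc_chart ↥O ({hs_muE h3 (N' * q) - 1} : Set ↥(hs_E L h3 (N' * q))))
      (ssm_fh_V2 h3 O h3O hπ N' q hq3 hqN') ≤ 𝔫) :
    s35l_NodeAt ((q : ℕ) : ↥O) (m59h2_twfw_lg_tau h3 N' q hq3 hqN' φ1) q
      (ssm_tp_P (fc_chart ↥O ({hs_muE h3 (N' * q) - 1} : Set ↥(hs_E L h3 (N' * q))))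
        (ssm_fh_V1 h3 O h3O hπ N' q))
      (ssm_tp_P (fc_chart ↥O ({hs_muE h3 (N' * q) - 1} : Set ↥(hs_E L h3 (N' * q))))
        (ssm_fh_V2 h3 O h3O hπ N' q hq3 hqN')) 𝔫 := by
  have hqO : ((q : ℕ) : O) ∈ maximalIdeal O := by
    rw [← residue_eq_zero_iff, map_natCast]
    exact CharP.cast_eq_zero _ q
  have hq3' : q ≠ 3 := by
    rintro rfl
    exact hq3 dvd_rfl
  obtain ⟨ω, hω, hram', hram⟩ := ssm_nht_ram h3 O N' (N' * q) hζ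
  obtain ⟨-, -, hprime1, -, -, hded1, -⟩ := ssm_hlr_main h3 O N' hπ q hqO hq3' hqN' ζ hζ
  have hic1 : IsIntegrallyClosed (fc_chart ↥O ({hs_muE h3 N' - 1} : Set ↥(hs_E L h3 N')) ⧸
      (Ideal.span {algebraMap ↥O (fc_chart ↥O ({hs_muE h3 N' - 1} : Set ↥(hs_E L h3 N')))
          ((q : ℕ) : ↥O)} :
        Ideal (fc_chart ↥O ({hs_muE h3 N' - 1} : Set ↥(hs_E L h3 N'))))) := by
    haveI := hded1
    infer_instance
  have F := ssm_fh_facts h3 O h3O hπ N' q hq3 hqN' hprime1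
  have hEC := ssm_hl_EC_aeval h3 O N' hπ q hqO hq3' hqN' ω hω hram'
  have hF : s35l_FrobAt (m59h2_twfw_lg_tau h3 N' q hq3 hqN' φ1) q 𝔫 :=
    m59h2_twfw_lg_frobAt h3 O h3O hπ N' q hq3 hqN' φ1 hφ1 F hprime1 hic1 𝔫 h𝔫 hP1 hP2
  have hthick := ssm_nht_thick_nf L h3 O h3O N' q hq3 hqN' hπ ζ hζ 𝔫 h𝔫 hP1 hP2
  letI := ssm_gi_algebra (ssm_alh_E_le L h3 (ssm_fh_hF9 h3) N' q)
  haveI := ssm_gt_isScalarTower O (ssm_alh_E_le L h3 (ssm_fh_hF9 h3) N' q)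
  have C1 := ssm_nh_cross h3 O h3O hπ N' q hq3 hqN' hprime1 hic1 hEC
  refine s35fh_nodeAt_of_cross C1 ((q : ℕ) : ↥O) (ssm_cpi_phi_algebraMap _ _)
    (m59h2_twfw_lg_tau h3 N' q hq3 hqN' φ1) q 𝔫 h𝔫 hP1 hP2 hF ?_
  obtain ⟨u, v, huv, h2, h3', h4, h5, h6, h7⟩ := hthick
  refine ⟨u, v, ?_, h2, h3', h4, h5, h6, h7⟩
  rw [huv]
  exact (map_natCast (algebraMap ↥O ↥(hs_E L h3 (N' * q))) q).symm

include hζ hφ1 in
set_option synthInstance.maxHeartbeats 400000 in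
set_option maxHeartbeats 3200000 in
/-- **the closed points of `B_x`**: smooth points and regular nodes fixed by the swap. -/
theorem m59h2_twfw_lg_pts1
    (𝔫 : Ideal (fc_chart ↥O ({hs_muE h3 (N' * q) - 1} : Set ↥(hs_E L h3 (N' * q)))))
    (h𝔫 : 𝔫.IsMaximal)
    (hπ𝔫 : algebraMap ↥O (fc_chart ↥O ({hs_muE h3 (N' * q) - 1} : Set ↥(hs_E L h3 (N' * q))))
      ((q : ℕ) : ↥O) ∈ 𝔫) :
    ss_SmoothAt ((q : ℕ) : ↥O)
        (fc_chart ↥O ({hs_muE h3 (N' * q) - 1} : Set ↥(hs_E L h3 (N' * q)))) 𝔫 ∨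
      s35l_NodeAt ((q : ℕ) : ↥O) (m59h2_twfw_lg_tau h3 N' q hq3 hqN' φ1) q
        (ssm_tp_P (fc_chart ↥O ({hs_muE h3 (N' * q) - 1} : Set ↥(hs_E L h3 (N' * q))))
          (ssm_fh_V1 h3 O h3O hπ N' q))
        (ssm_tp_P (fc_chart ↥O ({hs_muE h3 (N' * q) - 1} : Set ↥(hs_E L h3 (N' * q))))
          (ssm_fh_V2 h3 O h3O hπ N' q hq3 hqN')) 𝔫 := by
  have hqO : ((q : ℕ) : O) ∈ maximalIdeal O := by
    rw [← residue_eq_zero_iff, map_natCast]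
    exact CharP.cast_eq_zero _ q
  have hq3' : q ≠ 3 := by
    rintro rfl
    exact hq3 dvd_rfl
  obtain ⟨hreg1, hreg2, hprime1, hprime2, -, hded1, hded2⟩ :=
    ssm_hlr_main h3 O N' hπ q hqO hq3' hqN' ζ hζ
  have hic1 : IsIntegrallyClosed (fc_chart ↥O ({hs_muE h3 N' - 1} : Set ↥(hs_E L h3 N')) ⧸
      (Ideal.span {algebraMap ↥O (fc_chart ↥O ({hs_muE h3 N' - 1} : Set ↥(hs_E L h3 N')))
          ((q : ℕ) : ↥O)} :
        Ideal (fc_chart ↥O ({hs_muE h3 N' - 1} : Set ↥(hs_E L h3 N'))))) := by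
    haveI := hded1
    infer_instance
  have hic2 : IsIntegrallyClosed (fc_chart ↥O ({(hs_muE h3 N' - 1)⁻¹} : Set ↥(hs_E L h3 N')) ⧸
      (Ideal.span {algebraMap ↥O
          (fc_chart ↥O ({(hs_muE h3 N' - 1)⁻¹} : Set ↥(hs_E L h3 N'))) ((q : ℕ) : ↥O)} :
        Ideal (fc_chart ↥O ({(hs_muE h3 N' - 1)⁻¹} : Set ↥(hs_E L h3 N'))))) := by
    haveI := hded2
    infer_instance
  obtain ⟨hsm11, hsm12, -, -⟩ :=
    ssm_sih_smooth h3 O h3O hπ N' q hq3 hqN' hprime1 hprime2 hic1 hic2 hreg1 hreg2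
  by_cases h2 : ssm_tp_P (fc_chart ↥O ({hs_muE h3 (N' * q) - 1} : Set ↥(hs_E L h3 (N' * q))))
      (ssm_fh_V2 h3 O h3O hπ N' q hq3 hqN') ≤ 𝔫
  · by_cases h1 : ssm_tp_P (fc_chart ↥O ({hs_muE h3 (N' * q) - 1} : Set ↥(hs_E L h3 (N' * q))))
        (ssm_fh_V1 h3 O h3O hπ N' q) ≤ 𝔫
    · exact Or.inr (m59h2_twfw_lg_nodeAt L h3 O h3O N' q hq3 hqN' hπ ζ hζ φ1 hφ1 𝔫 h𝔫 h1 h2)
    · exact Or.inl (hsm12 𝔫 h𝔫 hπ𝔫 h1)
  · exact Or.inl (hsm11 𝔫 h𝔫 hπ𝔫 h2)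

end NF

end Fermat.Agent.M59

end
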