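/-
M59 / box [C] Mazur at `q = 2`, HESSE PORT, cluster D-TORIC (helper29).  Prefix `m59h2_`.

Twin of `TW/Easy/ToricW/LegWProv.lean`: [L]-φ FOR THE SWAP `τ_W = W ∘ Φ` ON THE HESSE TOWER
(coordinate `x = μ - 1`, `3 ∤ q`), number-field level.  The generic provider `twfw_lp_of_const` is
main's.
-/
import Mathlib
import Fermat.Agent.M59.Hesse2.Toric.HesWLoc
import Fermat.Agent.TW.Easy.ToricW.LocProvW

set_option autoImplicit false
set_option linter.style.haveILetI false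
set_option linter.unusedSectionVars false
set_option linter.unusedVariables false

noncomputable section

namespace Fermat.Agent.M59

open Fermat.Agent.SS Fermat.Agent.JT3 Fermat.Agent.S35 Fermat.Agent.TW IntermediateField
  ModularCurve IsLocalRing AlgebraicCurve

section NF

variable (L : Type) [Field L] [NumberField L] [Algebra L (AlgebraicClosure ℚ)]
  (h3 : (3 : L) ≠ 0) (O : ValuationSubring L) [IsDiscreteValuationRing O]
  (h3O : IsUnit (3 : O))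
variable (N' q : ℕ) [NeZero N'] [NeZero q] [hq : Fact q.Prime] [CharP (ResidueField O) q]
  (hq3 : ¬ 3 ∣ q) (hqN' : ¬ q ∣ N') (hπ : Irreducible ((q : ℕ) : ↥O))
  (ζ : L) (hζ : IsPrimitiveRoot ζ (3 * N'))
  (φ1 : L ≃+* L) (hφ1 : s35nf_FrobAt O φ1 q)

include hζ hφ1 in
set_option synthInstance.maxHeartbeats 400000 in
set_option maxHeartbeats 3200000 in
/-- **[L]-φ for the swap on the Hesse tower** over `(L, O, q)`. -/
theorem m59h2_twfw_lg_locProv {m : ℕ} (hm : m ≠ 0) {g' : ↥(hs_E L h3 (N' * q))} (hg'0 : g' ≠ 0)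
    (hU1 : tori_UnitV (ssm_tp_P (fc_chart ↥O
      ({hs_muE h3 (N' * q) - 1, (hs_muE h3 (N' * q) - 1)⁻¹} :
      Set ↥(hs_E L h3 (N' * q)))) (ssm_fh_V1 h3 O h3O hπ N' q)) g')
    (hU2 : tori_UnitV (ssm_tp_P (fc_chart ↥O
      ({hs_muE h3 (N' * q) - 1, (hs_muE h3 (N' * q) - 1)⁻¹} :
      Set ↥(hs_E L h3 (N' * q)))) (ssm_fh_V2 h3 O h3O hπ N' q hq3 hqN')) g')
    {u : ↥O} (hu : IsUnit u)
    (h4a : m59h2_twfw_lg_tau h3 N' q hq3 hqN' φ1 g' * g' ^ q *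
        algebraMap ↥O ↥(hs_E L h3 (N' * q)) u - 1 ∈
      sfc_piO (fc_chart ↥O ({hs_muE h3 (N' * q) - 1, (hs_muE h3 (N' * q) - 1)⁻¹} :
        Set ↥(hs_E L h3 (N' * q)))).toSubring
        (algebraMap ↥O ↥(hs_E L h3 (N' * q)) ((q : ℕ) : ↥O)))
    (hord : ∀ P : Place L ↥(hs_E L h3 (N' * q)), (m : ℤ) ∣ P.ord g') :
    tori_LocAt ((q : ℕ) : ↥O) m
        (m59h2_twfw_lg_tau h3 N' q hq3 hqN' φ1 g' * g' ^ q *
          algebraMap ↥O ↥(hs_E L h3 (N' * q)) u)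
        (fc_chart ↥O ({hs_muE h3 (N' * q) - 1} : Set ↥(hs_E L h3 (N' * q)))) ∧
      tori_LocAt ((q : ℕ) : ↥O) m
        (m59h2_twfw_lg_tau h3 N' q hq3 hqN' φ1 g' * g' ^ q *
          algebraMap ↥O ↥(hs_E L h3 (N' * q)) u)
        (fc_chart ↥O ({(hs_muE h3 (N' * q) - 1)⁻¹} : Set ↥(hs_E L h3 (N' * q)))) := by
  have hqO : ((q : ℕ) : O) ∈ maximalIdeal O := by
    rw [← residue_eq_zero_iff, map_natCast]
    exact CharP.cast_eq_zero _ q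
  have hq3' : q ≠ 3 := by
    rintro rfl
    exact hq3 dvd_rfl
  obtain ⟨-, -, hprime1, -, -, -, -⟩ := ssm_hlr_main h3 O N' hπ q hqO hq3' hqN' ζ hζ
  haveI := ssm_go_isScalarTower O (hs_E L h3 (N' * q))
  haveI := ssm_glh_finite h3 (N' * q)
  have hx := ssm_sgm_transcendental h3 (N' * q)
  have H := ssm_fh_hyp h3 O h3O hπ N' q hq3 hqN' hprime1
  exact twfw_lp_of_const (L := L) hπ hx H (m59h2_twfw_lg_tau h3 N' q hq3 hqN' φ1) φ1
    (m59h2_twfw_lg_baseL h3 N' q hq3 hqN' φ1) hq.out.two_le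
    (fun z hz => (m59h2_twfw_lg_V21m h3 O h3O hπ N' q hq3 hqN' φ1 hφ1 z).2 hz)
    (fun z hz => (m59h2_twfw_lg_V12m h3 O h3O hπ N' q hq3 hqN' φ1 hφ1 z).2 hz)
    (fun 𝔫 h𝔫 hπ𝔫 => m59h2_twfw_lg_pts1 L h3 O h3O N' q hq3 hqN' hπ ζ hζ φ1 hφ1 𝔫 h𝔫 hπ𝔫)
    (fun 𝔫 h𝔫 hπ𝔫 hμ => s35fh_inf L h3 O h3O N' q hq3 hqN' hπ ζ hζ 𝔫 h𝔫 hπ𝔫 hμ) hm hg'0 hU1 hU2 hu
    h4a hord

end NF

end Fermat.Agent.M59

end
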