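/-
M59 / box [C] Mazur at `q = 2`, HESSE PORT, cluster D-TORIC (helper29).  Prefix `m59h2_`.

Twin of `TW/Easy/ToricW/LegWToric.lean` (the two declarations used by (Z8)): **THE SWAP TORIC
IDENTITY `W (Φ g') · g'^q = c · r^m` OVER THE UNRAMIFIED NUMBER FIELDS, HESSE COVER** (coordinate
`x = μ - 1`, level prime `q` with `3 ∤ q`, `ζ_{3N'} ∈ L`).

* `m59h2_twfw_ff_ToricWAt h3 O h3O hπ N' q hq3 hqN' φ m` : for `g' ≠ 0` in `hs_E L h3 (N' q)` with
  all orders divisible by `m` and constant reductions (`s35h_ConstRed`),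
  `W (Φ g') * g'^q = c · r^m` (`W = ssm_fh_W`, `Φ = ssm_sgh_aut h3 (N' q) φ`);
* `m59h2_twfw_ff_leg_toricWAt` : it holds over a number-field base `(L, O, q)`, `ζ_{3N'} ∈ L`.
-/
import Mathlib
import Fermat.Agent.S35.FinalHes.Toric
import Fermat.Agent.M59.Hesse2.Toric.HesWProv
import Fermat.Agent.TW.Easy.ToricW.CoreFF

set_option autoImplicit false
set_option linter.style.haveILetI false
set_option linter.unusedSectionVars false
set_option linter.unusedVariables false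

noncomputable section

namespace Fermat.Agent.M59

open Fermat.Agent.SS Fermat.Agent.JT3 Fermat.Agent.S35 Fermat.Agent.TW IntermediateField
  ModularCurve IsLocalRing AlgebraicCurve

section Seam

variable {L : Type*} [Field L] [CharZero L] [Algebra L (AlgebraicClosure ℚ)] (h3 : (3 : L) ≠ 0)
  (O : ValuationSubring L) [IsDiscreteValuationRing O] (h3O : IsUnit (3 : O)) {π : O}
  (hπ : Irreducible π)
  (N' q : ℕ) [NeZero N'] [NeZero q] [hq : Fact q.Prime] [CharP (ResidueField O) q]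
  (hq3 : ¬ 3 ∣ q) (hqN' : ¬ q ∣ N')

/-- **[TORIC-W]** at `(L, O, φ, m)`, Hesse cover: for `g'` with all orders divisible by `m` and
constant reductions, `W (Φ g') · g'^q = c · r^m`. -/
def m59h2_twfw_ff_ToricWAt (φ : L ≃+* L) (m : ℕ) : Prop :=
  ∀ g' : ↥(hs_E L h3 (N' * q)), g' ≠ 0 →
    (∀ v : Place L ↥(hs_E L h3 (N' * q)), (m : ℤ) ∣ v.ord g') →
    s35h_ConstRed h3 O h3O hπ N' q hq3 hqN' g' →
    ∃ (c : L) (r : ↥(hs_E L h3 (N' * q))), r ≠ 0 ∧
      ssm_fh_W h3 N' q hq3 hqN' (ssm_sgh_aut h3 (N' * q) φ g') * g' ^ q =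
        algebraMap L ↥(hs_E L h3 (N' * q)) c * r ^ m

end Seam

section NF

variable (L : Type) [Field L] [NumberField L] [Algebra L (AlgebraicClosure ℚ)]
  (h3 : (3 : L) ≠ 0) (O : ValuationSubring L) [IsDiscreteValuationRing O]
  (h3O : IsUnit (3 : O))
variable (N' q : ℕ) [NeZero N'] [NeZero q] [hq : Fact q.Prime] [CharP (ResidueField O) q]
  (hq3 : ¬ 3 ∣ q) (hqN' : ¬ q ∣ N') (hπ : Irreducible ((q : ℕ) : ↥O))
  (ζ : L) (hζ : IsPrimitiveRoot ζ (3 * N'))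
  (φ : L ≃+* L) (hφ : s35nf_FrobAt O φ q)

include hζ hφ in
set_option synthInstance.maxHeartbeats 400000 in
set_option maxHeartbeats 3200000 in
/-- **[TORIC-W] for the Hesse tower** over a number-field base `(L, O, q)`. -/
theorem m59h2_twfw_ff_leg_toricWAt (m : ℕ) (hm : IsUnit (m : O)) :
    m59h2_twfw_ff_ToricWAt h3 O h3O hπ N' q hq3 hqN' φ m := by
  intro g' hg'0 hord hred
  obtain ⟨k1, k2, hk1, hk2, h1, h2⟩ := hred
  have hm0 : m ≠ 0 := by
    rintro rfl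
    rw [Nat.cast_zero] at hm
    exact not_isUnit_zero hm
  have hqO : ((q : ℕ) : O) ∈ maximalIdeal O := by
    rw [← residue_eq_zero_iff, map_natCast]
    exact CharP.cast_eq_zero _ q
  have hq3' : q ≠ 3 := by
    rintro rfl
    exact hq3 dvd_rfl
  obtain ⟨-, -, hprime1, -, -, -, -⟩ := ssm_hlr_main h3 O N' hπ q hqO hq3' hqN' ζ hζ
  haveI := ssm_go_isScalarTower O (hs_E L h3 (N' * q))
  haveI := ssm_glh_finite h3 (N' * q)
  have hx := ssm_sgm_transcendental h3 (N' * q)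
  have H := ssm_fh_hyp h3 O h3O hπ N' q hq3 hqN' hprime1
  have M := s35fh_model L h3 O h3O hπ N' q hq3 hqN' ζ hζ
  have hC := ssm_tp_ff_chart12 (A0 := ↥O) (L := L) hπ hx
  haveI : IsIntegrallyClosed (Algebra.adjoin ↥O
      ({hs_muE h3 (N' * q) - 1} : Set ↥(hs_E L h3 (N' * q)))) :=
    fc_ff_isIntegrallyClosed (fc_ff_transcendental (L := L) hx)
  haveI : FaithfulSMul (Algebra.adjoin ↥O
      ({hs_muE h3 (N' * q) - 1} : Set ↥(hs_E L h3 (N' * q)))) ↥(hs_E L h3 (N' * q)) :=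
    (faithfulSMul_iff_algebraMap_injective _ _).2 Subtype.val_injective
  haveI := M.prime1
  haveI := M.prime2
  have hU1 : tori_UnitV (ssm_tp_P (fc_chart ↥O
      ({hs_muE h3 (N' * q) - 1, (hs_muE h3 (N' * q) - 1)⁻¹} :
      Set ↥(hs_E L h3 (N' * q)))) (ssm_fh_V1 h3 O h3O hπ N' q)) g' :=
    tori_unitV_of_sub_memM (tori_unitV_algebraMap hk1) ((tori_tp_memM1_iff H hC).1 h1)
  have hU2 : tori_UnitV (ssm_tp_P (fc_chart ↥O
      ({hs_muE h3 (N' * q) - 1, (hs_muE h3 (N' * q) - 1)⁻¹} :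
      Set ↥(hs_E L h3 (N' * q)))) (ssm_fh_V2 h3 O h3O hπ N' q hq3 hqN')) g' :=
    tori_unitV_of_sub_memM (tori_unitV_algebraMap hk2) ((tori_tp_memM2_iff H hC).1 h2)
  obtain ⟨c, r, hr0, hc⟩ := twfw_ff_core (L := L) hπ hx H M
    (m59h2_twfw_lg_tau h3 N' q hq3 hqN' φ) (s35nf_base hφ) q
    (m59h2_twfw_lg_base h3 O N' q hq3 hqN' φ hφ) (twfw_lg_tau0_dvd O q φ hφ hπ.maximalIdeal_eq)
    (fun z hz => (m59h2_twfw_lg_V21m h3 O h3O hπ N' q hq3 hqN' φ hφ z).2 hz)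
    (fun z hz => (m59h2_twfw_lg_V12m h3 O h3O hπ N' q hq3 hqN' φ hφ z).2 hz)
    m hm hk1 hk2 h1 h2
    (fun u hu h4a => m59h2_twfw_lg_locProv L h3 O h3O N' q hq3 hqN' hπ ζ hζ φ hφ hm0 hg'0 hU1 hU2
      hu h4a hord)
  refine ⟨(c : L), r, hr0, ?_⟩
  rw [← m59h2_twfw_lg_tau_apply]
  exact hc

end NF

end Fermat.Agent.M59

end
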